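import Fermat.Agent.ECFrobenius.Translation
import Mathlib.Algebra.Module.ZMod
import Mathlib.FieldTheory.Finite.Basic
import Mathlib.GroupTheory.Index
import Mathlib.LinearAlgebra.Basis.Defs

/-!
# `E[n] ≅ (ℤ/n)²` over an algebraically closed field in which `n` is invertible
-/

set_option autoImplicit false

noncomputable section

open WeierstrassCurve WeierstrassCurve.Affine

namespace Fermat.Agent.ECFrobenius

section group

variable {A : Type*} [AddCommGroup A]

/-- Two elements generate the `n`-torsion. -/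
def GeneratesTorsion (n : ℕ) (P Q : A) : Prop :=
  (n : ℤ) • P = 0 ∧ (n : ℤ) • Q = 0 ∧
    ∀ x : A, (n : ℤ) • x = 0 → ∃ a b : ℤ, x = a • P + b • Q

lemma exists_zsmul_generators {l : ℕ} [Fact l.Prime] {V : Type*} [AddCommGroup V]
    [Module (ZMod l) V] (hcard : Nat.card V = l ^ 2) :
    ∃ P Q : V, ∀ x : V, ∃ a b : ℤ, x = a • P + b • Q := by
  have hl : l.Prime := Fact.out
  have : Finite V := Nat.finite_of_card_ne_zero (by rw [hcard]; exact pow_ne_zero _ hl.ne_zero)
  have hfr : Module.finrank (ZMod l) V = 2 := by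
    have h := Module.natCard_eq_pow_finrank (K := ZMod l) (V := V)
    rw [hcard, Nat.card_zmod] at h
    exact (Nat.pow_right_injective hl.two_le h).symm
  let B := Module.finBasisOfFinrankEq (ZMod l) V hfr
  refine ⟨B 0, B 1, fun x ↦ ?_⟩
  obtain ⟨a, ha⟩ := ZMod.intCast_surjective (B.repr x 0)
  obtain ⟨b, hb⟩ := ZMod.intCast_surjective (B.repr x 1)
  refine ⟨a, b, ?_⟩
  have h := B.sum_repr x
  rw [Fin.sum_univ_two, ← ha, ← hb, Int.cast_smul_eq_zsmul, Int.cast_smul_eq_zsmul] at h
  exact h.symm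

lemma exists_generatesTorsion_prime {l : ℕ} (hl : l.Prime)
    (hcard : Nat.card (Submodule.torsionBy ℤ A (l : ℤ)) = l ^ 2) :
    ∃ P Q : A, GeneratesTorsion l P Q := by
  have : Fact l.Prime := ⟨hl⟩
  let : Module (ZMod l) (Submodule.torsionBy ℤ A (l : ℤ)) := AddCommGroup.zmodModule fun x ↦ by
    rw [← Nat.cast_smul_eq_nsmul ℤ l x]
    exact Submodule.smul_torsionBy _ x
  obtain ⟨P, Q, h⟩ := exists_zsmul_generators (l := l) hcard
  refine ⟨P, Q, (Submodule.mem_torsionBy_iff _ _).mp P.2,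
    (Submodule.mem_torsionBy_iff _ _).mp Q.2, fun x hx ↦ ?_⟩
  obtain ⟨a, b, hab⟩ := h ⟨x, (Submodule.mem_torsionBy_iff _ _).mpr hx⟩
  exact ⟨a, b, congr_arg Subtype.val hab⟩

lemma exists_generatesTorsion {n : ℕ} (hn : 0 < n)
    (hcard : ∀ d, d ∣ n → Nat.card (Submodule.torsionBy ℤ A (d : ℤ)) = d ^ 2) :
    ∃ P Q : A, GeneratesTorsion n P Q := by
  induction n using Nat.recOnPosPrimePosCoprime with
  | prime_pow p m hp hm =>
    obtain ⟨j, rfl⟩ : ∃ j, m = j + 1 := ⟨m - 1, by lia⟩
    have hall : ∀ i, i ≤ j + 1 → Nat.card (Submodule.torsionBy ℤ A ((p ^ i : ℕ) : ℤ)) =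
        (p ^ i) ^ 2 := fun i hi ↦ hcard _ (pow_dvd_pow p hi)
    clear hcard hn hm
    induction j with
    | zero =>
      rw [zero_add, pow_one]
      exact exists_generatesTorsion_prime hp (by simpa using hall 1 le_rfl)
    | succ j ih =>
      obtain ⟨P, Q, hP, hQ, hgen⟩ := ih (fun i hi ↦ hall i (by lia))
      let T := Submodule.torsionBy ℤ A ((p ^ (j + 2) : ℕ) : ℤ)
      let T' := Submodule.torsionBy ℤ A ((p ^ (j + 1) : ℕ) : ℤ)
      have hmem : ∀ x : T, (p : ℤ) • (x : A) ∈ T' := fun x ↦ by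
        rw [Submodule.mem_torsionBy_iff, smul_smul, ← Nat.cast_mul, ← pow_succ]
        exact (Submodule.mem_torsionBy_iff _ _).mp x.2
      let μ : T →+ T' :=
        { toFun := fun x ↦ ⟨(p : ℤ) • (x : A), hmem x⟩
          map_zero' := Subtype.ext (smul_zero _)
          map_add' := fun x y ↦ Subtype.ext (smul_add _ _ _) }
      have : Finite T := Nat.finite_of_card_ne_zero
        (by rw [hall _ le_rfl]; exact pow_ne_zero _ (pow_ne_zero _ hp.ne_zero))
      have : Finite T' := Nat.finite_of_card_ne_zero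
        (by rw [hall _ (by lia)]; exact pow_ne_zero _ (pow_ne_zero _ hp.ne_zero))
      have hker : Nat.card μ.ker = p ^ 2 := by
        rw [← pow_one p, ← hall 1 (by lia)]
        refine Nat.card_congr
          { toFun := fun x ↦ ⟨(x.1 : A), (Submodule.mem_torsionBy_iff _ _).mpr ?_⟩
            invFun := fun x ↦ ⟨⟨(x : A), (Submodule.mem_torsionBy_iff _ _).mpr ?_⟩, ?_⟩
            left_inv := fun x ↦ rfl
            right_inv := fun x ↦ rfl }
        · simpa [μ] using congr_arg Subtype.val x.2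
        · have hx := (Submodule.mem_torsionBy_iff _ _).mp x.2
          have hx' : (p : ℤ) • (x : A) = 0 := by simpa using hx
          rw [pow_succ, Nat.cast_mul, mul_smul, hx', smul_zero]
        · exact Subtype.ext (by simpa [μ] using (Submodule.mem_torsionBy_iff _ _).mp x.2)
      have hsurj : Function.Surjective μ := by
        rw [← AddMonoidHom.range_eq_top]
        refine AddSubgroup.eq_top_of_card_eq _ ?_
        have h1 : μ.ker.index = Nat.card μ.range := AddSubgroup.index_ker μ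
        have h2 := μ.ker.card_mul_index
        rw [hker, h1] at h2
        have h3 : Nat.card T = p ^ 2 * Nat.card T' := by
          simp only [T, T']
          rw [hall _ le_rfl, hall _ (by lia)]
          ring
        rw [h3] at h2
        exact Nat.eq_of_mul_eq_mul_left (pow_pos hp.pos 2) h2
      obtain ⟨P', hP'⟩ := hsurj ⟨P, (Submodule.mem_torsionBy_iff _ _).mpr hP⟩
      obtain ⟨Q', hQ'⟩ := hsurj ⟨Q, (Submodule.mem_torsionBy_iff _ _).mpr hQ⟩
      have hP'' : (p : ℤ) • (P' : A) = P := congr_arg Subtype.val hP'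
      have hQ'' : (p : ℤ) • (Q' : A) = Q := congr_arg Subtype.val hQ'
      refine ⟨P', Q', (Submodule.mem_torsionBy_iff _ _).mp P'.2,
        (Submodule.mem_torsionBy_iff _ _).mp Q'.2, fun x hx ↦ ?_⟩
      obtain ⟨a, b, hab⟩ := hgen ((p : ℤ) • x) (by
        rw [smul_smul, ← Nat.cast_mul, ← pow_succ]; exact hx)
      have hpx : (p : ℤ) • (x - a • (P' : A) - b • (Q' : A)) = 0 := by
        rw [smul_sub, smul_sub, smul_comm (p : ℤ) a, smul_comm (p : ℤ) b, hP'', hQ'', hab]
        abel
      obtain ⟨a', b', hab'⟩ := hgen (x - a • (P' : A) - b • (Q' : A)) (by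
        rw [pow_succ, Nat.cast_mul, mul_smul, hpx, smul_zero])
      refine ⟨a + a' * p, b + b' * p, ?_⟩
      rw [← hP'', ← hQ'', smul_smul, smul_smul, sub_sub, sub_eq_iff_eq_add] at hab'
      rw [hab', add_smul, add_smul]
      abel
  | zero => exact absurd hn (lt_irrefl 0)
  | one => exact ⟨0, 0, by simp, by simp, fun x hx ↦ ⟨0, 0, by simpa using hx⟩⟩
  | coprime a b ha hb hab iha ihb =>
    obtain ⟨Pa, Qa, hPa, hQa, hga⟩ := iha (by lia) fun d hd ↦ hcard d (hd.mul_right b)
    obtain ⟨Pb, Qb, hPb, hQb, hgb⟩ := ihb (by lia) fun d hd ↦ hcard d (hd.mul_left a)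
    obtain ⟨u, v, huv⟩ := Int.isCoprime_iff_gcd_eq_one.mpr (by simpa using hab :
      Int.gcd (a : ℤ) (b : ℤ) = 1)
    have hsplit : ∀ (y z : A), (a : ℤ) • y = 0 → (b : ℤ) • z = 0 →
        (v * b) • (y + z) = y ∧ (u * a) • (y + z) = z := fun y z hy hz ↦ by
      have h1 : (v * b) • z = 0 := by rw [mul_smul, hz, smul_zero]
      have h2 : (u * a) • y = 0 := by rw [mul_smul, hy, smul_zero]
      constructor
      · rw [smul_add, h1, add_zero]
        have : v * (b : ℤ) = 1 - u * a := by linear_combination huv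
        rw [this, sub_smul, h2, sub_zero, one_smul]
      · rw [smul_add, h2, zero_add]
        have : u * (a : ℤ) = 1 - v * b := by linear_combination huv
        rw [this, sub_smul, h1, sub_zero, one_smul]
    refine ⟨Pa + Pb, Qa + Qb, ?_, ?_, fun x hx ↦ ?_⟩
    · rw [Nat.cast_mul, mul_smul, smul_add, hPb, add_zero, smul_comm, hPa, smul_zero]
    · rw [Nat.cast_mul, mul_smul, smul_add, hQb, add_zero, smul_comm, hQa, smul_zero]
    · rw [Nat.cast_mul] at hx
      obtain ⟨c, d, hcd⟩ := hga ((v * b) • x) (by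
        rw [smul_smul, show (a : ℤ) * (v * b) = v * (a * b) by ring, mul_smul, hx, smul_zero])
      obtain ⟨c', d', hcd'⟩ := hgb ((u * a) • x) (by
        rw [smul_smul, show (b : ℤ) * (u * a) = u * (a * b) by ring, mul_smul, hx, smul_zero])
      refine ⟨c * (v * b) + c' * (u * a), d * (v * b) + d' * (u * a), ?_⟩
      rw [add_smul, add_smul, mul_smul c, mul_smul c', mul_smul d, mul_smul d',
        (hsplit Pa Pb hPa hPb).1, (hsplit Pa Pb hPa hPb).2, (hsplit Qa Qb hQa hQb).1,
        (hsplit Qa Qb hQa hQb).2]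
      calc x = ((u * a + v * b : ℤ)) • x := by rw [huv, one_smul]
        _ = _ := by rw [add_smul, hcd, hcd']; abel

/-- A torsion group generated by two elements with `n²` elements is free on these elements. -/
lemma exists_basis_torsionBy {n : ℕ} (hn : 0 < n)
    [Module (ZMod n) (Submodule.torsionBy ℤ A (n : ℤ))]
    {P Q : A} (h : GeneratesTorsion n P Q)
    (hcard : Nat.card (Submodule.torsionBy ℤ A (n : ℤ)) = n ^ 2) :
    ∃ B : Module.Basis (Fin 2) (ZMod n) (Submodule.torsionBy ℤ A (n : ℤ)),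
      (B 0 : A) = P ∧ (B 1 : A) = Q := by
  have : NeZero n := ⟨hn.ne'⟩
  obtain ⟨hP, hQ, hgen⟩ := h
  let P' : Submodule.torsionBy ℤ A (n : ℤ) := ⟨P, (Submodule.mem_torsionBy_iff _ _).mpr hP⟩
  let Q' : Submodule.torsionBy ℤ A (n : ℤ) := ⟨Q, (Submodule.mem_torsionBy_iff _ _).mpr hQ⟩
  let f : (Fin 2 → ZMod n) →ₗ[ZMod n] Submodule.torsionBy ℤ A (n : ℤ) :=
    (LinearMap.proj 0).smulRight P' + (LinearMap.proj 1).smulRight Q'
  have hsurj : Function.Surjective f := fun x ↦ by
    obtain ⟨a, b, hx⟩ := hgen x ((Submodule.mem_torsionBy_iff _ _).mp x.2)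
    refine ⟨![(a : ZMod n), (b : ZMod n)], Subtype.ext ?_⟩
    simp [f, Int.cast_smul_eq_zsmul, P', Q', hx]
  have hinj : Function.Injective f := by
    have : Finite (Submodule.torsionBy ℤ A (n : ℤ)) :=
      Nat.finite_of_card_ne_zero (by rw [hcard]; positivity)
    exact (Nat.bijective_iff_surjective_and_card f).mpr
      ⟨hsurj, by rw [hcard, Nat.card_pi]; simp⟩ |>.1
  refine ⟨(Pi.basisFun (ZMod n) (Fin 2)).map (LinearEquiv.ofBijective f ⟨hinj, hsurj⟩), ?_, ?_⟩ <;>
    simp [f, P', Q']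

end group

variable {k : Type*} [Field k] [IsAlgClosed k] [DecidableEq k] (W : WeierstrassCurve.Affine k)
  [W.IsElliptic]

/-- For `n` invertible the `n`-torsion is generated by two points. -/
theorem exists_generatesTorsion_point {n : ℕ} (hn : (n : k) ≠ 0) :
    ∃ P Q : W.Point, GeneratesTorsion n P Q :=
  exists_generatesTorsion (Nat.pos_of_ne_zero fun h ↦ hn (by simp [h])) fun d hd ↦
    natCard_torsionBy W fun h ↦ hn <| by
      obtain ⟨e, rfl⟩ := hd; simp [h]

end Fermat.Agent.ECFrobenius
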