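import Fermat.Agent.ECFrobenius.Frobenius
import Fermat.Agent.ECFrobenius.Torsion
import Mathlib.LinearAlgebra.Charpoly.ToMatrix
import Mathlib.LinearAlgebra.Matrix.Charpoly.Coeff

/-!
# Trace and determinant of Frobenius on `E[n]`
-/

set_option autoImplicit false

noncomputable section

open scoped Classical
open WeierstrassCurve WeierstrassCurve.Affine

namespace Fermat.Agent.ECFrobenius

/-- The integer arithmetic behind the computation. -/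
lemma dvd_trace_sub {n j t m₀₀ m₁₀ m₀₁ m₁₁ : ℤ}
    (hd : j ∣ m₁₁ - m₀₀)
    (hbez : ∃ a b c e : ℤ, a * m₁₀ + b * m₀₁ + c * (m₁₁ - m₀₀) + e * n ^ 2 = j)
    (hj2 : j ∣ 2 * m₀₀ - t)
    (r10 : n ^ 2 ∣ m₁₀ * (t - m₀₀ - m₁₁)) (r01 : n ^ 2 ∣ m₀₁ * (t - m₀₀ - m₁₁))
    (rd : n ^ 2 ∣ (m₁₁ - m₀₀) * (t - m₀₀ - m₁₁)) :
    n ∣ t - m₀₀ - m₁₁ := by
  obtain ⟨a, b, c, e, habc⟩ := hbez
  have hjD : n ^ 2 ∣ j * (t - m₀₀ - m₁₁) := by
    rw [← habc]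
    have := ((dvd_mul_of_dvd_right r10 a).add (dvd_mul_of_dvd_right r01 b)).add
      ((dvd_mul_of_dvd_right rd c).add (dvd_mul_right (n ^ 2) (e * (t - m₀₀ - m₁₁))))
    convert! this using 1
    ring
  obtain ⟨f, hf⟩ : j ∣ t - m₀₀ - m₁₁ := by
    have := (dvd_neg.mpr hj2).sub hd
    convert! this using 1
    ring
  rw [hf] at hjD ⊢
  have hsq : n ^ 2 ∣ (j * f) ^ 2 := by
    rw [show (j * f) ^ 2 = (j * (j * f)) * f by ring]
    exact dvd_mul_of_dvd_left hjD f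
  exact (Int.pow_dvd_pow_iff two_ne_zero).mp hsq

variable {F k : Type*} [Field F] [Finite F] [Field k] [IsAlgClosed k] [DecidableEq k] [Algebra F k]
  (W₀ : WeierstrassCurve F) [W₀.IsElliptic] (psi : k →ₐ[F] k)
  (hpsi : ∀ a, psi a = a ^ Nat.card F)

include hpsi

/-- The matrix of Frobenius on `E[n]`, with trace `a` and determinant `q`. -/
theorem exists_basis_frobenius {n : ℕ} (hn : (n : k) ≠ 0) :
    ∃ (B : Module.Basis (Fin 2) (ZMod n) (Submodule.torsionBy ℤ (W₀⁄k).Point (n : ℤ)))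
      (m₀₀ m₁₀ m₀₁ m₁₁ : ℤ),
      Point.map psi (B 0 : (W₀⁄k).Point) =
          m₀₀ • (B 0 : (W₀⁄k).Point) + m₁₀ • (B 1 : (W₀⁄k).Point) ∧
      Point.map psi (B 1 : (W₀⁄k).Point) =
          m₀₁ • (B 0 : (W₀⁄k).Point) + m₁₁ • (B 1 : (W₀⁄k).Point) ∧
      ((m₀₀ + m₁₁ : ℤ) : ZMod n) = (W₀.traceOfFrobenius : ZMod n) ∧
      ((m₀₀ * m₁₁ - m₀₁ * m₁₀ : ℤ) : ZMod n) = (Nat.card F : ZMod n) := by
  have : WeierstrassCurve.IsElliptic (W₀⁄k) := instIsEllipticWbar W₀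
  set N := n ^ 2 with hN
  have hn0 : n ≠ 0 := fun h ↦ hn (by simp [h])
  have hNk : (N : k) ≠ 0 := by rw [hN, Nat.cast_pow]; exact pow_ne_zero _ hn
  have hNpos : 0 < N := by positivity
  have : NeZero N := ⟨hNpos.ne'⟩
  obtain ⟨P, Q, hgen⟩ := exists_generatesTorsion_point (W₀⁄k) hNk
  obtain ⟨BN, hBP, hBQ⟩ := exists_basis_torsionBy hNpos hgen (natCard_torsionBy (W₀⁄k) hNk)
  -- independence
  have hind : ∀ a b : ℤ, a • P + b • Q = 0 → (N : ℤ) ∣ a ∧ (N : ℤ) ∣ b := by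
    intro a b hab
    have h : (a : ZMod N) • BN 0 + (b : ZMod N) • BN 1 = 0 := by
      apply Subtype.ext
      simp [Int.cast_smul_eq_zsmul, hBP, hBQ, hab]
    have h2 := Fintype.linearIndependent_iff.mp BN.linearIndependent
      ![(a : ZMod N), (b : ZMod N)] (by simpa [Fin.sum_univ_two] using h)
    exact ⟨(ZMod.intCast_zmod_eq_zero_iff_dvd a N).mp (h2 0),
      (ZMod.intCast_zmod_eq_zero_iff_dvd b N).mp (h2 1)⟩
  obtain ⟨hP, hQ, hspan⟩ := hgen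
  obtain ⟨m₀₀, m₁₀, hψP⟩ := hspan (Point.map psi P) (by rw [← map_zsmul, hP, map_zero])
  obtain ⟨m₀₁, m₁₁, hψQ⟩ := hspan (Point.map psi Q) (by rw [← map_zsmul, hQ, map_zero])
  set t := W₀.traceOfFrobenius with ht
  set q : ℤ := (Nat.card F : ℤ) with hq
  -- the relation on `P` and `Q`
  have hrP := frobenius_relation W₀ psi hpsi P
  have hrQ := frobenius_relation W₀ psi hpsi Q
  rw [hψP, map_add, map_zsmul, map_zsmul, hψP, hψQ] at hrP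
  rw [hψQ, map_add, map_zsmul, map_zsmul, hψP, hψQ] at hrQ
  obtain ⟨r00, r10⟩ := hind (m₀₀ * m₀₀ + m₁₀ * m₀₁ - t * m₀₀ + q)
    (m₀₀ * m₁₀ + m₁₀ * m₁₁ - t * m₁₀) (by rw [← hrP]; module)
  obtain ⟨r01, r11⟩ := hind (m₀₁ * m₀₀ + m₁₁ * m₀₁ - t * m₀₁)
    (m₀₁ * m₁₀ + m₁₁ * m₁₁ - t * m₁₁ + q) (by rw [← hrQ]; module)
  -- the scalar level
  obtain ⟨j, hj10, hj01, hjd, hjN, a, b, c, e, habce⟩ :
      ∃ j : ℕ, (j : ℤ) ∣ m₁₀ ∧ (j : ℤ) ∣ m₀₁ ∧ (j : ℤ) ∣ m₁₁ - m₀₀ ∧ j ∣ N ∧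
        ∃ a b c e : ℤ, a * m₁₀ + b * m₀₁ + c * (m₁₁ - m₀₀) + e * N = j := by
    set g₁ : ℤ := (Int.gcd m₁₀ m₀₁ : ℤ) with hg₁
    set g₂ : ℤ := (Int.gcd (m₁₁ - m₀₀) (N : ℤ) : ℤ) with hg₂
    refine ⟨Int.gcd g₁ g₂, (Int.gcd_dvd_left ..).trans (Int.gcd_dvd_left ..),
      (Int.gcd_dvd_left ..).trans (Int.gcd_dvd_right ..),
      (Int.gcd_dvd_right ..).trans (Int.gcd_dvd_left ..), ?_, ?_⟩
    · exact Int.natCast_dvd_natCast.mp ((Int.gcd_dvd_right ..).trans (Int.gcd_dvd_right ..))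
    · refine ⟨Int.gcdA g₁ g₂ * Int.gcdA m₁₀ m₀₁, Int.gcdA g₁ g₂ * Int.gcdB m₁₀ m₀₁,
        Int.gcdB g₁ g₂ * Int.gcdA (m₁₁ - m₀₀) N, Int.gcdB g₁ g₂ * Int.gcdB (m₁₁ - m₀₀) N, ?_⟩
      rw [Int.gcd_eq_gcd_ab g₁ g₂, hg₁, hg₂, Int.gcd_eq_gcd_ab m₁₀ m₀₁,
        Int.gcd_eq_gcd_ab (m₁₁ - m₀₀) N]
      ring
  have hj0 : j ≠ 0 := fun h ↦ hNpos.ne' (Nat.eq_zero_of_zero_dvd (h ▸ hjN))
  have hjk : (j : k) ≠ 0 := fun h ↦ hNk (by obtain ⟨d, hd⟩ := hjN; simp [hd, h])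
  have hscal : ∀ R : (W₀⁄k).Point, (j : ℤ) • R = 0 → frk W₀ R = m₀₀ • R := by
    intro R hR
    have hNR : (N : ℤ) • R = 0 := by
      obtain ⟨d, hd⟩ := hjN
      rw [hd, Nat.cast_mul, mul_comm, mul_smul, hR, smul_zero]
    obtain ⟨u, v, rfl⟩ := hspan R hNR
    obtain ⟨hu, hv⟩ := hind ((j : ℤ) * u) ((j : ℤ) * v) (by rw [← hR]; module)
    obtain ⟨hu', hu''⟩ := hu
    obtain ⟨hv', hv''⟩ := hv
    have hju : ((j : ℤ) * u) • P = 0 ∧ ((j : ℤ) * u) • Q = 0 := by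
      rw [hu'', mul_comm, mul_smul, mul_smul, hP, hQ]; simp
    have hjv : ((j : ℤ) * v) • P = 0 ∧ ((j : ℤ) * v) • Q = 0 := by
      rw [hv'', mul_comm, mul_smul, mul_smul, hP, hQ]; simp
    obtain ⟨c10, hc10⟩ := hj10
    obtain ⟨c01, hc01⟩ := hj01
    obtain ⟨cd, hcd⟩ := hjd
    rw [← map_eq_frk W₀ psi hpsi, map_add, map_zsmul, map_zsmul, hψP, hψQ,
      show m₁₁ = m₀₀ + (j : ℤ) * cd by linear_combination hcd, hc10, hc01]
    have h1 : c10 • ((j : ℤ) * u) • Q = 0 := by rw [hju.2, smul_zero]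
    have h2 : c01 • ((j : ℤ) * v) • P = 0 := by rw [hjv.1, smul_zero]
    have h3 : cd • ((j : ℤ) * v) • Q = 0 := by rw [hjv.2, smul_zero]
    calc _ = m₀₀ • (u • P + v • Q) + c10 • ((j : ℤ) * u) • Q + c01 • ((j : ℤ) * v) • P +
          cd • ((j : ℤ) * v) • Q := by module
      _ = _ := by rw [h1, h2, h3]; simp
  have hs1 := sq_dvd_of_frk_eq_zsmul W₀ hjk m₀₀ hscal
  have hs2 := sq_dvd_of_frk_eq_zsmul W₀ hjk (m₀₀ + j) fun R hR ↦ by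
    rw [hscal R hR, add_smul, hR, add_zero]
  have hj2 : (j : ℤ) ∣ 2 * m₀₀ - t := by
    have h := hs2.sub hs1
    rw [show (m₀₀ + j) ^ 2 - t * (m₀₀ + j) + q - (m₀₀ ^ 2 - t * m₀₀ + q) =
      (j : ℤ) * (2 * m₀₀ - t) + (j : ℤ) ^ 2 by ring, dvd_add_self_right, sq] at h
    exact Int.dvd_of_mul_dvd_mul_left (by exact_mod_cast hj0) h
  have hNZ : (N : ℤ) = (n : ℤ) ^ 2 := by rw [hN]; push_cast; ring
  have hrd : (n : ℤ) ^ 2 ∣ (m₁₁ - m₀₀) * (t - m₀₀ - m₁₁) := by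
    rw [← hNZ]; convert! r00.sub r11 using 1; ring
  have hr10 : (n : ℤ) ^ 2 ∣ m₁₀ * (t - m₀₀ - m₁₁) := by
    rw [← hNZ]; convert! r10.neg_right using 1; ring
  have hr01 : (n : ℤ) ^ 2 ∣ m₀₁ * (t - m₀₀ - m₁₁) := by
    rw [← hNZ]; convert! r01.neg_right using 1; ring
  have htr : (n : ℤ) ∣ t - m₀₀ - m₁₁ :=
    dvd_trace_sub (n := n) (j := j) hjd
      ⟨a, b, c, e, by rw [← hNZ]; exact habce⟩ hj2 hr10 hr01 hrd
  -- descend to level `n`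
  have hgen' : GeneratesTorsion n ((n : ℤ) • P) ((n : ℤ) • Q) := by
    refine ⟨?_, ?_, fun x hx ↦ ?_⟩
    · rw [smul_smul, ← sq, ← hNZ, hP]
    · rw [smul_smul, ← sq, ← hNZ, hQ]
    · obtain ⟨u, v, rfl⟩ := hspan x (by rw [hNZ, sq, mul_smul, hx, smul_zero])
      obtain ⟨hu, hv⟩ := hind ((n : ℤ) * u) ((n : ℤ) * v) (by rw [← hx]; module)
      rw [hNZ, sq] at hu hv
      have hn0' : (n : ℤ) ≠ 0 := by exact_mod_cast hn0
      obtain ⟨u', rfl⟩ := Int.dvd_of_mul_dvd_mul_left hn0' hu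
      obtain ⟨v', rfl⟩ := Int.dvd_of_mul_dvd_mul_left hn0' hv
      exact ⟨u', v', by module⟩
  obtain ⟨B, hB0, hB1⟩ := exists_basis_torsionBy (Nat.pos_of_ne_zero hn0) hgen'
    (natCard_torsionBy (W₀⁄k) hn)
  refine ⟨B, m₀₀, m₁₀, m₀₁, m₁₁, ?_, ?_, ?_, ?_⟩
  · rw [hB0, hB1, map_zsmul, hψP]; module
  · rw [hB0, hB1, map_zsmul, hψQ]; module
  · rw [← sub_eq_zero, ← Int.cast_sub, ZMod.intCast_zmod_eq_zero_iff_dvd]
    convert! htr.neg_right using 1; ring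
  · rw [show (Nat.card F : ZMod n) = ((q : ℤ) : ZMod n) by simp [hq], ← sub_eq_zero,
      ← Int.cast_sub, ZMod.intCast_zmod_eq_zero_iff_dvd]
    have h00 : (n : ℤ) ∣ m₀₀ * m₀₀ + m₁₀ * m₀₁ - t * m₀₀ + q :=
      (Dvd.intro (n : ℤ) (by rw [hNZ, sq] : (n : ℤ) * n = N)).trans r00
    convert! ((htr.mul_left m₀₀).add h00).neg_right using 1
    ring

variable {n : ℕ} (hn : (n : k) ≠ 0)
  (φ : Module.End (ZMod n) (Submodule.torsionBy ℤ (W₀⁄k).Point (n : ℤ)))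
  (hφ : ∀ x, (φ x : (W₀⁄k).Point) = Point.map psi (x : (W₀⁄k).Point))

include hn hφ

/-- The matrix of Frobenius. -/
theorem exists_toMatrix_frobenius :
    ∃ B : Module.Basis (Fin 2) (ZMod n) (Submodule.torsionBy ℤ (W₀⁄k).Point (n : ℤ)),
      (LinearMap.toMatrix B B φ).trace = (W₀.traceOfFrobenius : ZMod n) ∧
      (LinearMap.toMatrix B B φ).det = (Nat.card F : ZMod n) := by
  obtain ⟨B, a, c, b, d, h0, h1, htr, hdet⟩ := exists_basis_frobenius W₀ psi hpsi hn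
  refine ⟨B, ?_⟩
  have e0 : φ (B 0) = (a : ZMod n) • B 0 + (c : ZMod n) • B 1 := Subtype.ext <| by
    rw [hφ, h0]; simp [Int.cast_smul_eq_zsmul]
  have e1 : φ (B 1) = (b : ZMod n) • B 0 + (d : ZMod n) • B 1 := Subtype.ext <| by
    rw [hφ, h1]; simp [Int.cast_smul_eq_zsmul]
  have hM : LinearMap.toMatrix B B φ = !![(a : ZMod n), b; c, d] := by
    ext i l
    rw [LinearMap.toMatrix_apply]
    fin_cases i <;> fin_cases l <;> simp [e0, e1]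
  rw [hM, Matrix.trace_fin_two_of, Matrix.det_fin_two_of, ← htr, ← hdet]
  push_cast
  exact ⟨rfl, rfl⟩

/-- The trace of Frobenius on `E[n]` is `q + 1 - #E(F)`. -/
theorem trace_frobenius :
    LinearMap.trace (ZMod n) _ φ = (W₀.traceOfFrobenius : ZMod n) := by
  obtain ⟨B, h, -⟩ := exists_toMatrix_frobenius W₀ psi hpsi hn φ hφ
  rw [LinearMap.trace_eq_matrix_trace (ZMod n) B, h]

/-- The determinant of Frobenius on `E[n]` is `q`. -/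
theorem det_frobenius : LinearMap.det φ = (Nat.card F : ZMod n) := by
  obtain ⟨B, -, h⟩ := exists_toMatrix_frobenius W₀ psi hpsi hn φ hφ
  rw [← LinearMap.det_toMatrix B, h]

end Fermat.Agent.ECFrobenius
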