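import Mathlib.AlgebraicGeometry.EllipticCurve.Affine.AddSubMap

/-!
# The addition-and-subtraction map computes `x(P+Q)`, `x(P-Q)`

For points `P`, `Q` of an elliptic curve over a field, `addSubMap` evaluated at `sym2x P Q` is
proportional to `sym2x (P+Q) (P-Q)`.
-/

set_option autoImplicit false

noncomputable section

namespace Fermat.Agent.ECFrobenius

open WeierstrassCurve WeierstrassCurve.Affine WeierstrassCurve.Affine.Point MvPolynomial


variable {L : Type*} [Field L] [DecidableEq L] {W : WeierstrassCurve.Affine L}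

omit [DecidableEq L] in
/-- The addition-and-subtraction map in explicit form. -/
lemma eval_addSubMap (W : WeierstrassCurve L) (v : Fin 3 → L) :
    (fun i ↦ (W.addSubMap i).eval v) =
      ![v 0 ^ 2 - W.b₄ * v 0 * v 2 - W.b₆ * v 1 * v 2 - W.b₈ * v 2 ^ 2,
        2 * v 1 * v 0 + W.b₂ * v 0 * v 2 + W.b₄ * v 1 * v 2 + W.b₆ * v 2 ^ 2,
        v 1 ^ 2 - 4 * v 0 * v 2] := by
  funext i
  fin_cases i <;> simp [addSubMap, map_ofNat]

/-- Twice a point with nonzero `ψ₂`. -/
lemma addX_self_mul_sq {x y : L} (h : W.Equation x y) (hy : y ≠ W.negY x y) :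
    W.addX x x (W.slope x x y y) * (2 * y + W.a₁ * x + W.a₃) ^ 2 =
      x ^ 4 - W.b₄ * x ^ 2 - 2 * W.b₆ * x - W.b₈ := by
  rw [equation_iff] at h
  have hd : 2 * y + W.a₁ * x + W.a₃ ≠ 0 := by
    intro h0; apply hy; simp only [negY]; linear_combination h0
  have hs : W.slope x x y y * (2 * y + W.a₁ * x + W.a₃) =
      3 * x ^ 2 + 2 * W.a₂ * x + W.a₄ - W.a₁ * y := by
    rw [slope_of_Y_ne rfl hy, negY,
      show y - (-y - W.a₁ * x - W.a₃) = 2 * y + W.a₁ * x + W.a₃ by ring, div_mul_cancel₀ _ hd]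
  simp only [addX, WeierstrassCurve.b₄, WeierstrassCurve.b₆, WeierstrassCurve.b₈]
  generalize W.slope x x y y = s at hs ⊢
  linear_combination
    (s * (2 * y + W.a₁ * x + W.a₃) + (3 * x ^ 2 + 2 * W.a₂ * x + W.a₄ - W.a₁ * y)
      + W.a₁ * (2 * y + W.a₁ * x + W.a₃)) * hs
    + (-8 * x - 4 * W.a₂ - W.a₁ ^ 2) * h

omit [DecidableEq L] in
lemma psi2_sq {x y : L} (h : W.Equation x y) :
    (2 * y + W.a₁ * x + W.a₃) ^ 2 = 4 * x ^ 3 + W.b₂ * x ^ 2 + 2 * W.b₄ * x + W.b₆ := by
  rw [equation_iff] at h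
  simp only [WeierstrassCurve.b₂, WeierstrassCurve.b₄, WeierstrassCurve.b₆]
  linear_combination (4 : L) * h

/-- The two products of the `x`-coordinates of `P + Q` and `P - Q` for `x(P) ≠ x(Q)`. -/
lemma addX_add_addX_negY {x₁ x₂ y₁ y₂ : L} (h₁ : W.Equation x₁ y₁) (h₂ : W.Equation x₂ y₂)
    (hx : x₁ ≠ x₂) :
    (W.addX x₁ x₂ (W.slope x₁ x₂ y₁ y₂) + W.addX x₁ x₂ (W.slope x₁ x₂ y₁ (W.negY x₂ y₂))) *
      (x₁ - x₂) ^ 2 =
      2 * (x₁ + x₂) * (x₁ * x₂) + W.b₂ * (x₁ * x₂) + W.b₄ * (x₁ + x₂) + W.b₆ := by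
  rw [equation_iff] at h₁ h₂
  have hd : x₁ - x₂ ≠ 0 := sub_ne_zero.mpr hx
  simp only [slope_of_X_ne hx, addX, negY, WeierstrassCurve.b₂, WeierstrassCurve.b₄,
    WeierstrassCurve.b₆]
  field_simp
  linear_combination (2 : L) * h₁ + (2 : L) * h₂

/-- The product of the abscissae of `P + Q` and `P - Q`. -/
lemma addX_mul_addX_negY {x₁ x₂ y₁ y₂ : L} (h₁ : W.Equation x₁ y₁) (h₂ : W.Equation x₂ y₂)
    (hx : x₁ ≠ x₂) :
    (W.addX x₁ x₂ (W.slope x₁ x₂ y₁ y₂) * W.addX x₁ x₂ (W.slope x₁ x₂ y₁ (W.negY x₂ y₂))) *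
      (x₁ - x₂) ^ 2 =
      (x₁ * x₂) ^ 2 - W.b₄ * (x₁ * x₂) - W.b₆ * (x₁ + x₂) - W.b₈ := by
  rw [equation_iff] at h₁ h₂
  have hd : x₁ - x₂ ≠ 0 := sub_ne_zero.mpr hx
  simp only [slope_of_X_ne hx, addX, negY, WeierstrassCurve.b₄,
    WeierstrassCurve.b₆, WeierstrassCurve.b₈]
  field_simp
  grind

/-- `addSubMap` sends `sym2x P Q` to a multiple of `sym2x (P + Q) (P - Q)`. -/
theorem exists_addSubMap_sym2x [W.IsElliptic] (P Q : W.Point) :
    ∃ c : L, c ≠ 0 ∧
      (fun i ↦ (W.addSubMap i).eval (P.sym2x Q)) = c • (P + Q).sym2x (P - Q) := by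
  have key0 : ∀ R : W.Point, (fun i ↦ (W.addSubMap i).eval ((0 : W.Point).sym2x R)) =
      R.sym2x R := by
    rintro (_ | ⟨x, y, h⟩)
    · rw [← zero_def, eval_addSubMap]; simp
    · rw [eval_addSubMap]; simp; refine ⟨?_, ?_⟩ <;> ring
  have hdouble : ∀ R : W.Point, ∃ c : L, c ≠ 0 ∧
      (fun i ↦ (W.addSubMap i).eval (R.sym2x R)) = c • (R + R).sym2x 0 := by
    rintro (_ | ⟨x, y, h⟩)
    · exact ⟨1, one_ne_zero, by rw [← zero_def, eval_addSubMap]; simp⟩
    · have hψ := psi2_sq h.1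
      by_cases hy : y = W.negY x y
      · refine ⟨x ^ 4 - W.b₄ * x ^ 2 - 2 * W.b₆ * x - W.b₈, fun h0 ↦ ?_, ?_⟩
        · have hz : (2 * y + W.a₁ * x + W.a₃) = 0 := by
            simp only [negY] at hy; linear_combination hy
          refine addSubMap_ne_zero W (sym2x_ne_zero (some x y h) (some x y h)) ?_
          rw [eval_addSubMap]
          rw [hz] at hψ
          funext i; fin_cases i <;> simp
          · linear_combination h0
          · linear_combination -hψ
          · ring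
        · rw [add_self_of_Y_eq hy, eval_addSubMap]
          have hz : (2 * y + W.a₁ * x + W.a₃) = 0 := by
            simp only [negY] at hy; linear_combination hy
          rw [hz] at hψ
          funext i; fin_cases i <;> simp
          · ring
          · linear_combination -hψ
          · ring
      · refine ⟨(2 * y + W.a₁ * x + W.a₃) ^ 2, pow_ne_zero 2 fun h0 ↦ hy ?_, ?_⟩
        · simp only [negY]; linear_combination h0
        · rw [add_self_of_Y_ne hy, eval_addSubMap]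
          have hk := addX_self_mul_sq h.1 hy
          funext i; fin_cases i <;> simp [-addX]
          · linear_combination -hk
          · linear_combination -hψ
          · ring
  match P, Q with
  | .zero, Q =>
    refine ⟨1, one_ne_zero, ?_⟩
    rw [← zero_def, key0, one_smul, zero_add, zero_sub, sym2x_neg_right]
  | P, .zero =>
    refine ⟨1, one_ne_zero, ?_⟩
    rw [← zero_def, sym2x_comm P 0, key0, one_smul, add_zero, sub_zero]
  | .some x₁ y₁ h₁, .some x₂ y₂ h₂ =>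
    by_cases hx : x₁ = x₂
    · obtain ⟨c, hc, he⟩ := hdouble (Point.some x₁ y₁ h₁)
      refine ⟨c, hc, ?_⟩
      rcases X_eq_iff.mp hx with hPQ | hPQ <;> rw [hPQ] at he ⊢
      · rw [he, sub_self]
      · rw [sym2x_neg_left] at he ⊢
        rw [neg_add_cancel, sub_eq_add_neg, sym2x_comm]
        rw [sym2x_neg_right, sym2x_comm _ 0] at he
        exact he
    · refine ⟨(x₁ - x₂) ^ 2, pow_ne_zero 2 (sub_ne_zero.mpr hx), ?_⟩
      rw [sub_eq_add_neg (Point.some x₁ y₁ h₁), neg_some, add_of_X_ne hx, add_of_X_ne hx, eval_addSubMap]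
      have hs := addX_add_addX_negY h₁.1 h₂.1 hx
      have hp := addX_mul_addX_negY h₁.1 h₂.1 hx
      funext i; fin_cases i <;> simp [-addX, -slope_of_X_ne, -negY]
      · linear_combination -hp
      · linear_combination -hs
      · ring

end Fermat.Agent.ECFrobenius
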