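import Mathlib.AlgebraicGeometry.EllipticCurve.Affine.Point
import Mathlib.FieldTheory.RatFunc.IntermediateField
import Mathlib.FieldTheory.Relrank
import Mathlib.RingTheory.Norm.Basic
import Mathlib.FieldTheory.IsAlgClosed.Basic

/-!
# The generic point of an elliptic curve and homomorphisms of the point groups
-/

set_option autoImplicit false

noncomputable section

open scoped Classical
open Polynomial WeierstrassCurve WeierstrassCurve.Affine

namespace Fermat.Agent.ECFrobenius

section pointHom

variable {F K L : Type*} [Field F] [Field K] [Field L] [DecidableEq F] [DecidableEq K]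
  [DecidableEq L]

/-- The map of points induced by a ring homomorphism compatible with the equations. -/
def pointHom {W : WeierstrassCurve.Affine F} {W' : WeierstrassCurve.Affine K} (f : F →+* K)
    (h : W.map f = W') : W.Point →+ W'.Point where
  toFun P := match P with
    | .zero => .zero
    | .some x y hP => .some (f x) (f y) (h ▸ (W.map_nonsingular f.injective x y).mpr hP)
  map_zero' := rfl
  map_add' := by
    subst h
    rintro (_ | ⟨x₁, y₁, h₁⟩) (_ | ⟨x₂, y₂, h₂⟩)
    any_goals rfl
    by_cases hxy : x₁ = x₂ ∧ y₁ = W.negY x₂ y₂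
    · rw [Point.add_of_Y_eq hxy.left hxy.right,
        Point.add_of_Y_eq (congr_arg _ hxy.left) <| by rw [hxy.right, map_negY]]
      rfl
    · rw [Point.add_some hxy]
      have hxy' : ¬(f x₁ = f x₂ ∧ f y₁ = (W.map f).negY (f x₂) (f y₂)) := fun h' ↦
        hxy ⟨f.injective h'.1, f.injective (by rw [h'.2, map_negY])⟩
      simp only [Point.add_some hxy', ← map_addX, ← map_addY, ← map_slope]

variable {W : WeierstrassCurve.Affine F} {W' : WeierstrassCurve.Affine K}
  {W'' : WeierstrassCurve.Affine L}

/-- `pointHom` fixes the origin. -/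
@[simp] lemma pointHom_zero (f : F →+* K) (h : W.map f = W') :
    pointHom f h (0 : W.Point) = 0 := rfl

/-- `pointHom` acts on coordinates. -/
@[simp] lemma pointHom_some (f : F →+* K) (h : W.map f = W') {x y : F} (hP : W.Nonsingular x y) :
    pointHom f h (.some x y hP) =
      .some (f x) (f y) (h ▸ (W.map_nonsingular f.injective x y).mpr hP) := rfl

/-- `pointHom` is functorial. -/
lemma pointHom_pointHom (f : F →+* K) (h : W.map f = W') (g : K →+* L) (h' : W'.map g = W'')
    (fg : F →+* L) (hfg : W.map fg = W'') (hcomp : ∀ x, g (f x) = fg x) (P : W.Point) :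
    pointHom g h' (pointHom f h P) = pointHom fg hfg P := by
  rcases P with _ | ⟨x, y, hP⟩
  · rfl
  · simp [hcomp]

/-- `pointHom` respects commutative squares. -/
lemma pointHom_comm {L' : Type*} [Field L'] [DecidableEq L'] {W₂ : WeierstrassCurve.Affine L'}
    (f : F →+* K) (h : W.map f = W') (g : K →+* L) (h' : W'.map g = W'')
    (f₂ : F →+* L') (h₂ : W.map f₂ = W₂) (g₂ : L' →+* L) (h₂' : W₂.map g₂ = W'')
    (hcomp : ∀ x, g (f x) = g₂ (f₂ x)) (P : W.Point) :
    pointHom g h' (pointHom f h P) = pointHom g₂ h₂' (pointHom f₂ h₂ P) := by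
  rcases P with _ | ⟨x, y, hP⟩
  · rfl
  · simp [hcomp]

/-- `pointHom` is injective. -/
lemma pointHom_injective (f : F →+* K) (h : W.map f = W') :
    Function.Injective (pointHom f h) := by
  rintro (_ | _) (_ | _) hPQ
  any_goals cases hPQ
  · rfl
  · simp only [pointHom_some, Point.some.injEq] at hPQ ⊢
    exact ⟨f.injective hPQ.1, f.injective hPQ.2⟩

/-- `pointHom` acts on abscissae through the field map. -/
lemma xRep_pointHom (f : F →+* K) (h : W.map f = W') (P : W.Point) :
    (pointHom f h P).xRep = f ∘ P.xRep := by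
  rcases P with _ | ⟨x, y, hP⟩
  · rw [← Point.zero_def, pointHom_zero]
    funext i; fin_cases i <;> simp
  · funext i; fin_cases i <;> simp

end pointHom

variable {k : Type*} [Field k] (W : WeierstrassCurve.Affine k)

instance finiteCR : Module.Finite k[X] W.CoordinateRing :=
  Module.Finite.of_basis (CoordinateRing.basis W)

/-- The function field. -/
abbrev FF := W.FunctionField

/-- The curve over its function field. -/
abbrev WK : WeierstrassCurve.Affine (FF W) := W.map (algebraMap k (FF W))

/-- The coordinate function `x`. -/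
def xg : FF W := algebraMap W.CoordinateRing (FF W) (CoordinateRing.mk W (C X))

/-- The coordinate function `y`. -/
def yg : FF W := algebraMap W.CoordinateRing (FF W) (CoordinateRing.mk W X)

/-- `k[X] → k(E)`. -/
def xi : k[X] →ₐ[k] FF W := aeval (xg W)

/-- `xi` is the map through the coordinate ring. -/
lemma xi_apply (p : k[X]) :
    xi W p = algebraMap W.CoordinateRing (FF W) (CoordinateRing.mk W (C p)) := by
  have : xi W = ((IsScalarTower.toAlgHom k W.CoordinateRing (FF W)).comp
      (IsScalarTower.toAlgHom k k[X] W.CoordinateRing)) := by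
    apply Polynomial.algHom_ext
    simp [xi, xg]
  rw [this]
  rfl

/-- The abscissa is transcendental: `xi` is injective. -/
lemma xi_injective : Function.Injective (xi W) := by
  intro p q h
  rw [xi_apply, xi_apply] at h
  exact FaithfulSMul.algebraMap_injective k[X] W.CoordinateRing
    (IsFractionRing.injective W.CoordinateRing (FF W) h)

lemma algebraMap_mk_add (p q : k[X]) :
    algebraMap W.CoordinateRing (FF W)
      (p • (1 : W.CoordinateRing) + q • CoordinateRing.mk W X) = xi W p + xi W q * yg W := by
  rw [CoordinateRing.smul, CoordinateRing.smul, mul_one, map_add, map_mul, ← xi_apply, ← xi_apply,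
    yg]

/-- The generic point satisfies the equation. -/
lemma equation_generic : (WK W).Equation (xg W) (yg W) := by
  have h : algebraMap W.CoordinateRing (FF W) (CoordinateRing.mk W W.polynomial) = 0 := by
    rw [AdjoinRoot.mk_self, map_zero]
  have hc : ∀ c : k, algebraMap W.CoordinateRing (FF W) (CoordinateRing.mk W (C (C c))) =
      algebraMap k (FF W) c := fun c ↦ by
    rw [← xi_apply, xi, aeval_C]
  simp only [polynomial, map_sub, map_add, map_mul, map_pow, hc] at h
  rw [equation_iff']
  simp only [xg, yg] at *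
  simp only [WeierstrassCurve.map_a₁, WeierstrassCurve.map_a₂, WeierstrassCurve.map_a₃,
    WeierstrassCurve.map_a₄, WeierstrassCurve.map_a₆]
  linear_combination h

/-- The equation satisfied in any target of a ring map out of the coordinates. -/
lemma equation_iff_eval₂ {L : Type*} [Field L] [Algebra k L] (x y : L) :
    (W.map (algebraMap k L)).toAffine.Equation x y ↔
      W.polynomial.eval₂ (aeval x : k[X] →ₐ[k] L) y = 0 := by
  rw [equation_iff']
  simp only [polynomial, eval₂_sub, eval₂_add, eval₂_mul, eval₂_pow, eval₂_C, eval₂_X,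
    RingHom.coe_coe, map_add, map_mul, map_pow, aeval_C, aeval_X, WeierstrassCurve.map_a₁,
    WeierstrassCurve.map_a₂, WeierstrassCurve.map_a₃, WeierstrassCurve.map_a₄,
    WeierstrassCurve.map_a₆]
  ring_nf

section embed

variable {W} {L : Type*} [Field L] [Algebra k L] (x y : L)
  (h : (W.map (algebraMap k L)).toAffine.Equation x y)

/-- Evaluation on the coordinate ring. -/
def evalCR : W.CoordinateRing →ₐ[k] L :=
  AdjoinRoot.liftAlgHom W.polynomial (aeval x) y ((equation_iff_eval₂ W x y).mp h)

@[simp] lemma evalCR_C (p : k[X]) : evalCR x y h (CoordinateRing.mk W (C p)) = aeval x p := by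
  simp [evalCR, CoordinateRing.mk]

@[simp] lemma evalCR_Y : evalCR x y h (CoordinateRing.mk W X) = y := by
  simp [evalCR, CoordinateRing.mk]

lemma evalCR_injective (hx : Transcendental k x) : Function.Injective (evalCR x y h) := by
  rw [injective_iff_map_eq_zero]
  intro z hz
  obtain ⟨p, q, rfl⟩ := CoordinateRing.exists_smul_basis_eq z
  have hN := CoordinateRing.coe_norm_smul_basis (W' := W) p q
  have h0 : evalCR x y h (CoordinateRing.mk W (C p + C q * X)) = 0 := by
    rw [CoordinateRing.smul, CoordinateRing.smul, mul_one] at hz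
    simpa using hz
  have h1 : evalCR x y h (algebraMap k[X] W.CoordinateRing
      (Algebra.norm k[X] (p • (1 : W.CoordinateRing) + q • CoordinateRing.mk W X))) = 0 := by
    rw [AdjoinRoot.algebraMap_eq, hN, map_mul, map_mul, h0, zero_mul]
  rw [show algebraMap k[X] W.CoordinateRing = (CoordinateRing.mk W).comp C from rfl,
    RingHom.comp_apply, evalCR_C] at h1
  exact (Algebra.norm_eq_zero_iff (R := k[X])).mp ((transcendental_iff.mp hx) _ h1)

/-- The embedding of the function field given by a point with transcendental abscissa. -/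
def embed (hx : Transcendental k x) : FF W →ₐ[k] L :=
  IsFractionRing.liftAlgHom (evalCR_injective x y h hx)

lemma embed_algebraMap (hx : Transcendental k x) (z : W.CoordinateRing) :
    embed x y h hx (algebraMap W.CoordinateRing (FF W) z) = evalCR x y h z :=
  IsFractionRing.lift_algebraMap (evalCR_injective x y h hx) z

@[simp] lemma embed_xi (hx : Transcendental k x) (p : k[X]) :
    embed x y h hx (xi W p) = aeval x p := by
  rw [xi_apply, embed_algebraMap, evalCR_C]

/-- `embed` sends the generic abscissa to `x`. -/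
@[simp] lemma embed_xg (hx : Transcendental k x) : embed x y h hx (xg W) = x := by
  rw [xg, embed_algebraMap, evalCR_C, aeval_X]

@[simp] lemma embed_yg (hx : Transcendental k x) : embed x y h hx (yg W) = y := by
  rw [yg, embed_algebraMap, evalCR_Y]

end embed

/-- Maps out of the function field are determined by the generic point. -/
lemma algHom_ext_gen {L : Type*} [Field L] [Algebra k L] {f g : FF W →ₐ[k] L}
    (hx : f (xg W) = g (xg W)) (hy : f (yg W) = g (yg W)) : f = g := by
  have hp : ∀ p : k[X], f (xi W p) = g (xi W p) := fun p ↦ by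
    rw [xi, ← aeval_algHom_apply, ← aeval_algHom_apply, hx]
  have hc : ∀ z, f (algebraMap W.CoordinateRing (FF W) z) =
      g (algebraMap W.CoordinateRing (FF W) z) := by
    intro z
    obtain ⟨p, q, rfl⟩ := CoordinateRing.exists_smul_basis_eq z
    rw [algebraMap_mk_add, map_add, map_add, map_mul, map_mul, hp, hp, hy]
  exact IsLocalization.algHom_ext (nonZeroDivisors W.CoordinateRing) (AlgHom.ext hc)

/-- Every function is `(p + q y) / n`. -/
lemma exists_repr (z : FF W) :
    ∃ p q n : k[X], n ≠ 0 ∧ z * xi W n = xi W p + xi W q * yg W := by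
  obtain ⟨a, b, hb, rfl⟩ := IsFractionRing.div_surjective W.CoordinateRing z
  obtain ⟨p, q, rfl⟩ := CoordinateRing.exists_smul_basis_eq b
  have hN := CoordinateRing.coe_norm_smul_basis (W' := W) p q
  set b' := CoordinateRing.mk W (C p + C q * (-(X : k[X][X]) - C (C W.a₁ * X + C W.a₃))) with hb'
  obtain ⟨p', q', hpq⟩ := CoordinateRing.exists_smul_basis_eq (a * b')
  set n := Algebra.norm k[X] (p • (1 : W.CoordinateRing) + q • CoordinateRing.mk W X) with hn
  have hb0 := nonZeroDivisors.ne_zero hb
  refine ⟨p', q', n, (Algebra.norm_ne_zero_iff (R := k[X])).mpr hb0, ?_⟩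
  rw [← algebraMap_mk_add, hpq, map_mul, xi_apply,
    show CoordinateRing.mk W (C n) = AdjoinRoot.of W.polynomial n from rfl, hN, map_mul,
    map_mul, ← hb', show CoordinateRing.mk W (C p + C q * X) =
      p • (1 : W.CoordinateRing) + q • CoordinateRing.mk W X by
        rw [CoordinateRing.smul, CoordinateRing.smul, mul_one, map_add, map_mul],
    ← mul_assoc, div_mul_cancel₀]
  exact fun h ↦ hb0 ((map_eq_zero_iff _ (IsFractionRing.injective _ _)).mp h)

variable [W.IsElliptic]

/-- The generic point is nonsingular. -/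
lemma nonsingular_generic : (WK W).Nonsingular (xg W) (yg W) :=
  equation_iff_nonsingular.mp (equation_generic W)

/-- The generic point. -/
def gen : (WK W).Point := .some _ _ (nonsingular_generic W)

omit [WeierstrassCurve.IsElliptic W] in
/-- The generic abscissa is transcendental. -/
lemma transcendental_xg : Transcendental k (xg W) :=
  transcendental_iff.mpr fun _ hp ↦ xi_injective W (hp.trans (map_zero _).symm)

/-- The involution induced by negation. -/
def sigma : FF W →ₐ[k] FF W :=
  embed (xg W) ((WK W).negY (xg W) (yg W)) ((equation_neg ..).mpr (equation_generic W))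
    (transcendental_xg W)

omit [WeierstrassCurve.IsElliptic W] in
@[simp] lemma sigma_xi (p : k[X]) : sigma W (xi W p) = xi W p := embed_xi ..

omit [WeierstrassCurve.IsElliptic W] in
@[simp] lemma sigma_yg : sigma W (yg W) = (WK W).negY (xg W) (yg W) := embed_yg ..

omit [WeierstrassCurve.IsElliptic W] in
@[simp] lemma sigma_xg : sigma W (xg W) = xg W := embed_xg ..

lemma negY_ne_self : (WK W).negY (xg W) (yg W) ≠ yg W := by
  intro h
  simp only [negY, WeierstrassCurve.map_a₁, WeierstrassCurve.map_a₃] at h
  have h' : algebraMap W.CoordinateRing (FF W)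
      ((C W.a₁ * X + C W.a₃) • (1 : W.CoordinateRing) + (2 : k[X]) • CoordinateRing.mk W X) = 0 := by
    rw [algebraMap_mk_add]
    simp only [map_add, map_mul, map_ofNat, xi, aeval_C, aeval_X]
    linear_combination -h
  obtain ⟨h1, h2⟩ := CoordinateRing.smul_basis_eq_zero
    ((map_eq_zero_iff _ (IsFractionRing.injective _ _)).mp h')
  have ha1 : W.a₁ = 0 := by simpa using congr_arg (fun p ↦ p.coeff 1) h1
  have ha3 : W.a₃ = 0 := by simpa using congr_arg (fun p ↦ p.coeff 0) h1
  have h2' : (2 : k) = 0 := by
    simpa using congr_arg (fun p ↦ p.eval 0) h2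
  apply W.isUnit_Δ.ne_zero
  simp only [WeierstrassCurve.Δ, WeierstrassCurve.b₂, WeierstrassCurve.b₄, WeierstrassCurve.b₆,
    WeierstrassCurve.b₈, ha1, ha3]
  linear_combination
    (-8 * W.a₂ ^ 2 * (4 * W.a₂ * W.a₆ - W.a₄ ^ 2) - 32 * W.a₄ ^ 3 - 216 * W.a₆ ^ 2
      + 144 * W.a₂ * W.a₄ * W.a₆) * h2'

/-- The inclusion of `k(x)`. -/
def iota : RatFunc k →ₐ[k] FF W :=
  RatFunc.liftAlgHom (xi W) (nonZeroDivisors_le_comap_nonZeroDivisors_of_injective _ (xi_injective W))

omit [WeierstrassCurve.IsElliptic W] in
/-- `iota` extends `xi`. -/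
@[simp] lemma iota_algebraMap (p : k[X]) : iota W (algebraMap k[X] (RatFunc k) p) = xi W p := by
  simp [iota, RatFunc.liftAlgHom_apply]

/-- Functions fixed by the involution are rational in the abscissa. -/
lemma mem_range_iota_of_fixed {z : FF W} (hz : sigma W z = z) : z ∈ (iota W).fieldRange := by
  obtain ⟨p, q, n, hn, h⟩ := exists_repr W z
  have h' := congr_arg (sigma W) h
  simp only [map_mul, map_add, sigma_xi, sigma_yg, hz] at h'
  rw [h] at h'
  have hq : xi W q * (yg W - (WK W).negY (xg W) (yg W)) = 0 := by linear_combination h'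
  rcases mul_eq_zero.mp hq with hq | hq
  · refine ⟨algebraMap _ _ p / algebraMap _ _ n, ?_⟩
    rw [AlgHom.toRingHom_eq_coe, RingHom.coe_coe, map_div₀, iota_algebraMap, iota_algebraMap,
      div_eq_iff ((map_ne_zero_iff _ (xi_injective W)).mpr hn), h, hq, zero_mul, add_zero]
  · exact absurd (sub_eq_zero.mp hq).symm (negY_ne_self W)

omit [WeierstrassCurve.IsElliptic W] in
lemma sigma_iota (r : RatFunc k) : sigma W (iota W r) = iota W r := by
  rw [← RatFunc.num_div_denom r, map_div₀, map_div₀, iota_algebraMap, iota_algebraMap, sigma_xi,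
    sigma_xi]

/-- The function field is quadratic over the rational functions in the abscissa. -/
lemma finrank_iota_range : Module.finrank (iota W).fieldRange (FF W) = 2 := by
  set E := (iota W).fieldRange
  have hmem : ∀ p : k[X], xi W p ∈ E := fun p ↦ ⟨algebraMap _ _ p, iota_algebraMap W p⟩
  let bx : E := ⟨(algebraMap k (FF W)) W.a₁ * xg W + algebraMap k (FF W) W.a₃, by
    convert! hmem (C W.a₁ * X + C W.a₃) using 1; simp [xi]⟩
  let cx : E := ⟨xg W ^ 3 + algebraMap k (FF W) W.a₂ * xg W ^ 2 +
      algebraMap k (FF W) W.a₄ * xg W + algebraMap k (FF W) W.a₆, by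
    convert! hmem (X ^ 3 + C W.a₂ * X ^ 2 + C W.a₄ * X + C W.a₆) using 1; simp [xi]⟩
  let P : E[X] := Cubic.toPoly ⟨0, 1, bx, -cx⟩
  have hP : P.Monic := Cubic.monic_of_b_eq_one'
  have hdeg : P.natDegree = 2 := Cubic.natDegree_of_b_ne_zero' one_ne_zero
  have hroot : aeval (yg W) P = 0 := by
    have := (equation_iff' ..).mp (equation_generic W)
    simp only [WeierstrassCurve.map_a₁, WeierstrassCurve.map_a₂, WeierstrassCurve.map_a₃,
      WeierstrassCurve.map_a₄, WeierstrassCurve.map_a₆] at this
    simp [P, Cubic.toPoly, bx, cx]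
    linear_combination this
  have hint : IsIntegral E (yg W) := ⟨P, hP, hroot⟩
  have hle : (minpoly E (yg W)).natDegree ≤ 2 :=
    hdeg ▸ natDegree_le_of_dvd (minpoly.dvd E (yg W) hroot) hP.ne_zero
  have hne : (minpoly E (yg W)).natDegree ≠ 1 := by
    intro h1
    obtain ⟨⟨z, r, hr⟩, hz⟩ := minpoly.natDegree_eq_one_iff.mp h1
    apply negY_ne_self W
    rw [← sigma_yg]
    simp at hz
    rw [← hz, ← hr, AlgHom.toRingHom_eq_coe, RingHom.coe_coe, sigma_iota]
  have htop : IntermediateField.adjoin E {yg W} = ⊤ := by
    refine eq_top_iff.mpr fun z _ ↦ ?_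
    obtain ⟨p, q, n, hn, h⟩ := exists_repr W z
    rw [← mul_div_cancel_right₀ z ((map_ne_zero_iff _ (xi_injective W)).mpr hn), h]
    have hE : ∀ p : k[X], xi W p ∈ IntermediateField.adjoin E {yg W} := fun p ↦
      IntermediateField.algebraMap_mem _ (⟨_, hmem p⟩ : E)
    exact div_mem (add_mem (hE p) (mul_mem (hE q) (IntermediateField.mem_adjoin_simple_self _ _)))
      (hE n)
  have := IntermediateField.adjoin.finrank hint
  rw [htop, IntermediateField.finrank_top'] at this
  have := minpoly.natDegree_pos hint
  lia

end Fermat.Agent.ECFrobenius
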