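import Mathlib.AlgebraicGeometry.EllipticCurve.Affine.AddSubMap
import Mathlib.FieldTheory.IsAlgClosed.Basic

/-!
# Degrees of coprime polynomial vectors under `sym2` and `addSubMap`
-/

set_option autoImplicit false

noncomputable section

namespace Fermat.Agent.ECFrobenius

open Polynomial

/-- No common root. -/
def NoCommonRoot {R : Type*} [CommRing R] {n : ℕ} (v : Fin n → R[X]) : Prop :=
  ∀ a : R, (fun i ↦ (v i).eval a) ≠ 0

/-- The maximal degree of the entries. -/
def maxDeg {R : Type*} [CommRing R] {n : ℕ} (v : Fin n → R[X]) : ℕ :=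
  Finset.univ.sup fun i ↦ (v i).natDegree

/-- Symmetric product of two pairs. -/
def sym2Vec {R : Type*} [CommRing R] (p q : Fin 2 → R) : Fin 3 → R :=
  ![p 0 * q 0, p 0 * q 1 + p 1 * q 0, p 1 * q 1]

/-- The addition-and-subtraction map as a function. -/
def asmVec {R : Type*} [CommRing R] (W : WeierstrassCurve R) (v : Fin 3 → R) : Fin 3 → R :=
  fun i ↦ (W.addSubMap i).eval v

/-- The addition-and-subtraction map in explicit form. -/
lemma asmVec_eq {R : Type*} [CommRing R] (W : WeierstrassCurve R) (v : Fin 3 → R) :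
    asmVec W v =
      ![v 0 ^ 2 - W.b₄ * v 0 * v 2 - W.b₆ * v 1 * v 2 - W.b₈ * v 2 ^ 2,
        2 * v 1 * v 0 + W.b₂ * v 0 * v 2 + W.b₄ * v 1 * v 2 + W.b₆ * v 2 ^ 2,
        v 1 ^ 2 - 4 * v 0 * v 2] := by
  funext i
  fin_cases i <;> simp [asmVec, WeierstrassCurve.addSubMap, map_ofNat]

/-- `sym2Vec` commutes with ring maps. -/
lemma map_sym2Vec {R S : Type*} [CommRing R] [CommRing S] (f : R →+* S) (p q : Fin 2 → R) :
    f ∘ sym2Vec p q = sym2Vec (f ∘ p) (f ∘ q) := by
  funext i; fin_cases i <;> simp [sym2Vec]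

/-- `asmVec` commutes with ring maps. -/
lemma map_asmVec {R S : Type*} [CommRing R] [CommRing S] (f : R →+* S)
    (W : WeierstrassCurve R) (v : Fin 3 → R) :
    f ∘ asmVec W v = asmVec (W.map f) (f ∘ v) := by
  rw [asmVec_eq, asmVec_eq]
  funext i; fin_cases i <;> simp [map_ofNat]

lemma sym2Vec_ne_zero {R : Type*} [CommRing R] [IsDomain R] {p q : Fin 2 → R} (hp : p ≠ 0)
    (hq : q ≠ 0) : sym2Vec p q ≠ 0 := by
  intro h
  have h0 := congr_fun h 0
  have h1 := congr_fun h 1
  have h2 := congr_fun h 2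
  simp [sym2Vec] at h0 h1 h2
  rcases h0 with h0 | h0
  · rcases h2 with h2 | h2
    · exact hp (funext fun i ↦ by fin_cases i <;> simp [h0, h2])
    · rw [h0, zero_mul, zero_add, mul_eq_zero] at h1
      rcases h1 with h1 | h1
      · exact hp (funext fun i ↦ by fin_cases i <;> simp [h0, h1])
      · exact hq (funext fun i ↦ by fin_cases i <;> simp [h2, h1])
  · rcases h2 with h2 | h2
    · rw [h0, h2, mul_comm, zero_mul, add_zero] at h1
      rcases mul_eq_zero.mp h1 with h1 | h1
      · exact hq (funext fun i ↦ by fin_cases i <;> simp [h0, h1])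
      · exact hp (funext fun i ↦ by fin_cases i <;> simp [h2, h1])
    · exact hq (funext fun i ↦ by fin_cases i <;> simp [h0, h2])

variable {k : Type*} [Field k]

lemma natDegree_le_maxDeg {n : ℕ} (v : Fin n → k[X]) (i : Fin n) :
    (v i).natDegree ≤ maxDeg v :=
  Finset.le_sup (f := fun i ↦ (v i).natDegree) (Finset.mem_univ i)

lemma maxDeg_le_iff {n : ℕ} {v : Fin n → k[X]} {d : ℕ} :
    maxDeg v ≤ d ↔ ∀ i, (v i).natDegree ≤ d := by
  simp [maxDeg]

/-- A vector without common root is nonzero. -/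
lemma NoCommonRoot.ne_zero {n : ℕ} {v : Fin n → k[X]} (hv : NoCommonRoot v) : v ≠ 0 := by
  intro h; exact hv 0 (funext fun i ↦ by simp [h])

/-- Top coefficients. -/
def topVec {n : ℕ} (d : ℕ) (v : Fin n → k[X]) : Fin n → k := fun i ↦ (v i).coeff d

lemma maxDeg_eq_of_top {n : ℕ} {v : Fin n → k[X]} {d : ℕ} (h : ∀ i, (v i).natDegree ≤ d)
    (ht : topVec d v ≠ 0) : maxDeg v = d := by
  refine le_antisymm (maxDeg_le_iff.mpr h) ?_
  obtain ⟨i, hi⟩ := Function.ne_iff.mp ht
  exact (le_natDegree_of_ne_zero hi).trans (natDegree_le_maxDeg v i)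

lemma topVec_maxDeg_ne_zero {n : ℕ} {v : Fin n → k[X]} (hv : v ≠ 0) :
    topVec (maxDeg v) v ≠ 0 := by
  obtain ⟨i, hi⟩ := Function.ne_iff.mp hv
  obtain ⟨j, -, hj⟩ := Finset.exists_max_image Finset.univ (fun i ↦ (v i).natDegree)
    ⟨i, Finset.mem_univ i⟩
  have hd : maxDeg v = (v j).natDegree :=
    le_antisymm (maxDeg_le_iff.mpr fun l ↦ hj l (Finset.mem_univ l)) (natDegree_le_maxDeg v j)
  intro h
  by_cases hj0 : v j = 0
  · have hd0 : maxDeg v = 0 := by rw [hd, hj0, natDegree_zero]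
    have hc := congr_fun h i
    rw [hd0] at hc
    have hdi := natDegree_le_maxDeg v i
    rw [hd0] at hdi
    apply hi
    rw [eq_C_of_natDegree_le_zero hdi]
    simpa [topVec] using hc
  · have hc := congr_fun h j
    rw [hd] at hc
    exact leadingCoeff_ne_zero.mpr hj0 hc

lemma natDegree_mul_le_add {p q : k[X]} {a b : ℕ} (hp : p.natDegree ≤ a) (hq : q.natDegree ≤ b) :
    (p * q).natDegree ≤ a + b :=
  natDegree_mul_le.trans (add_le_add hp hq)

lemma sym2Vec_natDegree_le (p q : Fin 2 → k[X]) (i : Fin 3) :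
    (sym2Vec p q i).natDegree ≤ maxDeg p + maxDeg q := by
  fin_cases i <;> simp only [sym2Vec, Fin.isValue, Fin.zero_eta, Fin.mk_one, Fin.reduceFinMk,
    Matrix.cons_val_zero, Matrix.cons_val_one, Matrix.cons_val]
  · exact natDegree_mul_le_add (natDegree_le_maxDeg p _) (natDegree_le_maxDeg q _)
  · exact (natDegree_add_le _ _).trans (max_le
      (natDegree_mul_le_add (natDegree_le_maxDeg p _) (natDegree_le_maxDeg q _))
      (natDegree_mul_le_add (natDegree_le_maxDeg p _) (natDegree_le_maxDeg q _)))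
  · exact natDegree_mul_le_add (natDegree_le_maxDeg p _) (natDegree_le_maxDeg q _)

lemma topVec_sym2Vec (p q : Fin 2 → k[X]) :
    topVec (maxDeg p + maxDeg q) (sym2Vec p q) =
      sym2Vec (topVec (maxDeg p) p) (topVec (maxDeg q) q) := by
  have h : ∀ i j, (p i * q j).coeff (maxDeg p + maxDeg q) =
      (p i).coeff (maxDeg p) * (q j).coeff (maxDeg q) := fun i j ↦
    coeff_mul_add_eq_of_natDegree_le (natDegree_le_maxDeg p i) (natDegree_le_maxDeg q j)
  funext i
  fin_cases i <;> simp [topVec, sym2Vec, h]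

/-- Symmetric products keep the absence of common roots. -/
lemma NoCommonRoot.sym2Vec {p q : Fin 2 → k[X]} (hp : NoCommonRoot p) (hq : NoCommonRoot q) :
    NoCommonRoot (sym2Vec p q) := by
  intro a
  exact (map_sym2Vec (evalRingHom a) p q).trans_ne (sym2Vec_ne_zero (hp a) (hq a))

lemma maxDeg_sym2Vec {p q : Fin 2 → k[X]} (hp : p ≠ 0) (hq : q ≠ 0) :
    maxDeg (sym2Vec p q) = maxDeg p + maxDeg q :=
  maxDeg_eq_of_top (sym2Vec_natDegree_le p q) <| topVec_sym2Vec p q ▸
    sym2Vec_ne_zero (topVec_maxDeg_ne_zero hp) (topVec_maxDeg_ne_zero hq)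

variable (W : WeierstrassCurve k) [W.IsElliptic]

lemma asmVec_ne_zero {v : Fin 3 → k} (hv : v ≠ 0) : asmVec W v ≠ 0 :=
  WeierstrassCurve.addSubMap_ne_zero W hv

/-- The addition-and-subtraction map keeps the absence of common roots. -/
lemma NoCommonRoot.asmVec {v : Fin 3 → k[X]} (hv : NoCommonRoot v) :
    NoCommonRoot (asmVec (W.map C) v) := by
  intro a
  refine (map_asmVec (evalRingHom a) (W.map C) v).trans_ne ?_
  have : (evalRingHom a).comp C = RingHom.id k := RingHom.ext fun x ↦ by simp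
  rw [WeierstrassCurve.map_map, this, WeierstrassCurve.map_id]
  exact asmVec_ne_zero W (hv a)

omit [W.IsElliptic] in
lemma asmVec_natDegree_le_and_top (v : Fin 3 → k[X]) {d : ℕ} (hd : ∀ i, (v i).natDegree ≤ d)
    (i : Fin 3) :
    (Fermat.Agent.ECFrobenius.asmVec (W.map C) v i).natDegree ≤ d + d ∧
      (Fermat.Agent.ECFrobenius.asmVec (W.map C) v i).coeff (d + d) =
        Fermat.Agent.ECFrobenius.asmVec W (topVec d v) i := by
  have hp : ∀ i j, (v i * v j).natDegree ≤ d + d := fun i j ↦ natDegree_mul_le_add (hd i) (hd j)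
  have hC : ∀ (c : k) (i j), (C c * v i * v j).natDegree ≤ d + d := fun c i j ↦ by
    rw [mul_assoc]; exact (natDegree_C_mul_le c _).trans (hp i j)
  have hcoeff : ∀ i j, (v i * v j).coeff (d + d) = (v i).coeff d * (v j).coeff d := fun i j ↦
    coeff_mul_add_eq_of_natDegree_le (hd i) (hd j)
  have h4 : (4 : k[X]) = C (4 : k) := (map_ofNat C 4).symm
  have h2 : (2 : k[X]) = C (2 : k) := (map_ofNat C 2).symm
  rw [asmVec_eq, asmVec_eq]
  fin_cases i <;>
    simp only [Fin.isValue, Fin.zero_eta, Fin.mk_one, Fin.reduceFinMk,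
      Matrix.cons_val_zero, Matrix.cons_val_one, Matrix.cons_val, WeierstrassCurve.map_b₂,
      WeierstrassCurve.map_b₄, WeierstrassCurve.map_b₆, WeierstrassCurve.map_b₈, sq, h4, h2,
      mul_assoc, coeff_sub, coeff_add, coeff_C_mul, hcoeff, topVec, and_true]
  · refine (natDegree_sub_le_iff_left ((natDegree_C_mul_le _ _).trans (hp _ _))).mpr ?_
    refine (natDegree_sub_le_iff_left ((natDegree_C_mul_le _ _).trans (hp _ _))).mpr ?_
    exact (natDegree_sub_le_iff_left ((natDegree_C_mul_le _ _).trans (hp _ _))).mpr (hp _ _)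
  · exact (natDegree_add_le _ _).trans (max_le ((natDegree_add_le _ _).trans (max_le
      ((natDegree_add_le _ _).trans (max_le ((natDegree_C_mul_le _ _).trans (hp _ _))
        ((natDegree_C_mul_le _ _).trans (hp _ _))))
      ((natDegree_C_mul_le _ _).trans (hp _ _)))) ((natDegree_C_mul_le _ _).trans (hp _ _)))
  · exact (natDegree_sub_le_iff_left ((natDegree_C_mul_le _ _).trans (hp _ _))).mpr (hp _ _)

lemma maxDeg_asmVec {v : Fin 3 → k[X]} (hv : v ≠ 0) :
    maxDeg (Fermat.Agent.ECFrobenius.asmVec (W.map C) v) = maxDeg v + maxDeg v := by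
  have h := asmVec_natDegree_le_and_top W v (d := maxDeg v) (natDegree_le_maxDeg v)
  refine maxDeg_eq_of_top (fun i ↦ (h i).1) ?_
  have : topVec (maxDeg v + maxDeg v) (Fermat.Agent.ECFrobenius.asmVec (W.map C) v) =
      Fermat.Agent.ECFrobenius.asmVec W (topVec (maxDeg v) v) := funext fun i ↦ (h i).2
  rw [this]
  exact asmVec_ne_zero W (topVec_maxDeg_ne_zero hv)

variable [IsAlgClosed k]

lemma NoCommonRoot.exists_sum_mul_eq_one {n : ℕ} {v : Fin n → k[X]} (hv : NoCommonRoot v) :
    ∃ a : Fin n → k[X], ∑ i, a i * v i = 1 := by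
  have h : Ideal.span (Set.range v) = ⊤ := by
    obtain ⟨g, hg⟩ := (IsPrincipalIdealRing.principal (Ideal.span (Set.range v))).principal
    have hdvd : ∀ i, g ∣ v i := fun i ↦ by
      have := Ideal.subset_span (s := Set.range v) (Set.mem_range_self i)
      rwa [SetLike.mem_coe, hg, ← Ideal.span, Ideal.mem_span_singleton] at this
    rw [hg, ← Ideal.span, Ideal.span_singleton_eq_top]
    by_contra hu
    by_cases hg0 : g = 0
    · exact hv 0 (funext fun i ↦ by
        have := hdvd i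
        rw [hg0, zero_dvd_iff] at this
        simp [this])
    · obtain ⟨a, ha⟩ := IsAlgClosed.exists_root g fun hdeg ↦
        hu (Polynomial.isUnit_iff_degree_eq_zero.mpr hdeg)
      exact hv a (funext fun i ↦ by
        obtain ⟨c, hc⟩ := hdvd i
        simp [hc, ha.eq_zero])
  have h1 : (1 : k[X]) ∈ Ideal.span (Set.range v) := by rw [h]; trivial
  exact Submodule.mem_span_range_iff_exists_fun k[X] |>.mp h1

/-- Proportional vectors without common root have the same degree. -/
lemma maxDeg_eq_of_cross_mul_eq {n : ℕ} {u w : Fin n → k[X]} (hu : NoCommonRoot u)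
    (hw : NoCommonRoot w) (h : ∀ i j, w i * u j = w j * u i) : maxDeg w = maxDeg u := by
  obtain ⟨a, ha⟩ := hu.exists_sum_mul_eq_one
  set c := ∑ i, a i * w i with hc
  have hwc : ∀ j, w j = c * u j := fun j ↦ by
    calc w j = (∑ i, a i * u i) * w j := by rw [ha, one_mul]
      _ = c * u j := by
        rw [hc, Finset.sum_mul, Finset.sum_mul]
        exact Finset.sum_congr rfl fun i _ ↦ by linear_combination a i * h j i
  have hdeg : c.degree = 0 := by
    by_contra hd
    obtain ⟨r, hr⟩ := IsAlgClosed.exists_root c hd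
    exact hw r (funext fun j ↦ by simp [hwc j, hr.eq_zero])
  obtain ⟨e, he⟩ : ∃ e, c = C e := ⟨c.coeff 0, eq_C_of_degree_eq_zero hdeg⟩
  have he0 : e ≠ 0 := fun h0 ↦ by simp [he, h0] at hdeg
  refine Finset.sup_congr rfl fun i _ ↦ ?_
  rw [hwc i, he, natDegree_C_mul he0]

/-- The degree part of the parallelogram law. -/
theorem maxDeg_add_eq {p q r s : Fin 2 → k[X]} (hp : NoCommonRoot p) (hq : NoCommonRoot q)
    (hr : NoCommonRoot r) (hs : NoCommonRoot s)
    (h : ∀ i j, Fermat.Agent.ECFrobenius.asmVec (W.map C) (Fermat.Agent.ECFrobenius.sym2Vec p q) i *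
        Fermat.Agent.ECFrobenius.sym2Vec r s j =
      Fermat.Agent.ECFrobenius.asmVec (W.map C) (Fermat.Agent.ECFrobenius.sym2Vec p q) j *
        Fermat.Agent.ECFrobenius.sym2Vec r s i) :
    maxDeg r + maxDeg s = 2 * maxDeg p + 2 * maxDeg q := by
  have hv := hp.sym2Vec hq
  have := maxDeg_eq_of_cross_mul_eq (hr.sym2Vec hs) (hv.asmVec W) h
  rw [maxDeg_sym2Vec hr.ne_zero hs.ne_zero, maxDeg_asmVec W hv.ne_zero,
    maxDeg_sym2Vec hp.ne_zero hq.ne_zero] at this
  lia

end Fermat.Agent.ECFrobenius
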