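import Fermat.Agent.ECFrobenius.AddSub
import Fermat.Agent.ECFrobenius.PolyVector
import Fermat.Agent.ECFrobenius.Generic

/-!
# The degree of even points over the function field

A point `P` of `E(k(E))` which anticommutes with negation is an endomorphism; `degPt P` is the
degree of its abscissa in `k(x)`. It is a quadratic form, and it is the degree of the field
extension cut out by `P`.
-/

set_option autoImplicit false

noncomputable section

open scoped Classical
open Polynomial WeierstrassCurve WeierstrassCurve.Affine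

namespace Fermat.Agent.ECFrobenius

variable {k : Type*} [Field k] [IsAlgClosed k] (W : WeierstrassCurve.Affine k) [W.IsElliptic]

omit [IsAlgClosed k] [WeierstrassCurve.IsElliptic W] in
/-- Endomorphisms of the function field fix the curve. -/
lemma map_algHom (f : FF W →ₐ[k] FF W) : (WK W).map (f : FF W →+* FF W) = WK W := by
  show WeierstrassCurve.map (WeierstrassCurve.map W (algebraMap k (FF W))) (f : FF W →+* FF W) =
    WeierstrassCurve.map W (algebraMap k (FF W))
  rw [WeierstrassCurve.map_map, AlgHom.comp_algebraMap]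

/-- The action of an endomorphism of the function field on points. -/
def mapPt (f : FF W →ₐ[k] FF W) : (WK W).Point →+ (WK W).Point :=
  pointHom (f : FF W →+* FF W) (map_algHom W f)

/-- Points on which the involution acts as `-1`. -/
def evenPts : AddSubgroup (WK W).Point where
  carrier := {P | mapPt W (sigma W) P = -P}
  zero_mem' := by simp
  add_mem' := fun {a b} ha hb ↦ by
    simp only [Set.mem_ofPred_eq] at *
    rw [map_add, ha, hb, neg_add]
  neg_mem' := fun {a} ha ↦ by
    simp only [Set.mem_ofPred_eq] at *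
    rw [map_neg, ha]

omit [IsAlgClosed k] [WeierstrassCurve.IsElliptic W] in
/-- A point is even if the involution sends it to its negative. -/
lemma mem_evenPts {P : (WK W).Point} : P ∈ evenPts W ↔ mapPt W (sigma W) P = -P := Iff.rfl

omit [IsAlgClosed k] in
/-- The generic point is even. -/
lemma gen_mem_evenPts : gen W ∈ evenPts W := by
  rw [mem_evenPts, gen, mapPt, pointHom_some, Point.neg_some]
  simp [-negY]

/-- Degree of a rational function. -/
def ratHt (r : RatFunc k) : ℕ := max r.num.natDegree r.denom.natDegree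

/-- The abscissa as a rational function. -/
def xRat (P : (WK W).Point) : RatFunc k :=
  match P with
  | .zero => 0
  | .some x _ _ => if h : x ∈ (iota W).fieldRange then Exists.choose h else 0

/-- Degree of a point. -/
def degPt (P : (WK W).Point) : ℕ := ratHt (xRat W P)

omit [IsAlgClosed k] [WeierstrassCurve.IsElliptic W] in
/-- The origin has degree zero. -/
@[simp] lemma degPt_zero : degPt W (0 : (WK W).Point) = 0 := by
  simp [degPt, xRat, ratHt]

omit [IsAlgClosed k] in
/-- `xRat` is the abscissa of an even point as a rational function. -/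
lemma iota_xRat {P : (WK W).Point} {x y : FF W} {h : (WK W).Nonsingular x y}
    (hP : P ∈ evenPts W) (he : P = .some x y h) : iota W (xRat W P) = x := by
  subst he
  rw [mem_evenPts, mapPt, pointHom_some, Point.neg_some] at hP
  simp only [Point.some.injEq] at hP
  have hm : x ∈ (iota W).fieldRange := mem_range_iota_of_fixed W hP.1
  simp only [xRat, dif_pos hm]
  exact hm.choose_spec

omit [IsAlgClosed k] in
lemma degPt_some_eq {x y : FF W} {h : (WK W).Nonsingular x y}
    (hP : (Point.some x y h : (WK W).Point) ∈ evenPts W) {r : RatFunc k} (hr : iota W r = x) :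
    degPt W (.some x y h) = ratHt r := by
  rw [degPt, (iota W).toRingHom.injective ((iota_xRat W hP rfl).trans hr.symm)]

/-- `v` represents the abscissa of `P`. -/
def HasRep (P : (WK W).Point) (v : Fin 2 → k[X]) : Prop :=
  NoCommonRoot v ∧ ∃ c : FF W, c ≠ 0 ∧ (fun i ↦ xi W (v i)) = c • P.xRep

omit [IsAlgClosed k] in
lemma noCommonRoot_num_denom (r : RatFunc k) : NoCommonRoot ![r.num, r.denom] := by
  intro a ha
  obtain ⟨u, v, huv⟩ := r.isCoprime_num_denom
  have h0 : r.num.eval a = 0 := congr_fun ha 0
  have h1 : r.denom.eval a = 0 := congr_fun ha 1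
  simpa [h0, h1] using congr_arg (fun p ↦ p.eval a) huv

omit [IsAlgClosed k] in
lemma maxDeg_num_denom (r : RatFunc k) : maxDeg ![r.num, r.denom] = ratHt r := by
  simp [maxDeg, ratHt, Finset.univ_fin2]

omit [IsAlgClosed k] in
/-- An even point has a representative computing its degree. -/
lemma exists_hasRep {P : (WK W).Point} (hP : P ∈ evenPts W) :
    ∃ v, HasRep W P v ∧ maxDeg v = degPt W P := by
  rcases P with _ | ⟨x, y, h⟩
  · refine ⟨![1, 0], ⟨fun a ha ↦ by simpa using congr_fun ha 0, 1, one_ne_zero, ?_⟩, ?_⟩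
    · funext i; fin_cases i <;> simp [← Point.zero_def]
    · rw [← Point.zero_def, degPt_zero]; simp [maxDeg, Finset.univ_fin2]
  · set r := xRat W (.some x y h) with hr
    refine ⟨![r.num, r.denom], ⟨noCommonRoot_num_denom r, xi W r.denom, ?_, ?_⟩,
      (maxDeg_num_denom r).trans rfl⟩
    · exact (map_ne_zero_iff _ (xi_injective W)).mpr r.denom_ne_zero
    · have hx := iota_xRat W hP rfl
      rw [← hr, ← RatFunc.num_div_denom r, map_div₀, iota_algebraMap, iota_algebraMap,
        div_eq_iff ((map_ne_zero_iff _ (xi_injective W)).mpr r.denom_ne_zero)] at hx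
      funext i; fin_cases i <;> simp [hx, mul_comm]

/-- All representatives compute the degree. -/
lemma HasRep.maxDeg_eq {P : (WK W).Point} (hP : P ∈ evenPts W) {v : Fin 2 → k[X]}
    (hv : HasRep W P v) : maxDeg v = degPt W P := by
  obtain ⟨u, ⟨hu, d, hd, hdu⟩, hdeg⟩ := exists_hasRep W hP
  obtain ⟨hv, c, hc, hcv⟩ := hv
  rw [← hdeg]
  refine maxDeg_eq_of_cross_mul_eq hu hv fun i j ↦ xi_injective W ?_
  simp only [map_mul, congr_fun hcv, congr_fun hdu, Pi.smul_apply, smul_eq_mul]
  ring

/-- The degree from a reduced fraction for the abscissa. -/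
lemma exists_rep_of_ratio {P : (WK W).Point} (hP : P ∈ evenPts W) {x y : FF W}
    {h : (WK W).Nonsingular x y} (he : P = .some x y h) {N D : k[X]}
    (hcop : NoCommonRoot ![N, D]) (hD : D ≠ 0) (hND : x * xi W D = xi W N) :
    degPt W P = max N.natDegree D.natDegree := by
  have hv : HasRep W P ![N, D] := ⟨hcop, xi W D, (map_ne_zero_iff _ (xi_injective W)).mpr hD, by
    funext i; fin_cases i <;> simp [he, ← hND, mul_comm]⟩
  rw [← HasRep.maxDeg_eq W hP hv]
  simp [maxDeg, Finset.univ_fin2]

/-- The parallelogram law. -/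
theorem degPt_add_add_sub {P Q : (WK W).Point} (hP : P ∈ evenPts W) (hQ : Q ∈ evenPts W) :
    degPt W (P + Q) + degPt W (P - Q) = 2 * degPt W P + 2 * degPt W Q := by
  obtain ⟨p, ⟨hp, a, ha, hpa⟩, dp⟩ := exists_hasRep W hP
  obtain ⟨q, ⟨hq, b, hb, hqb⟩, dq⟩ := exists_hasRep W hQ
  obtain ⟨r, ⟨hr, c, hc, hrc⟩, dr⟩ := exists_hasRep W (add_mem hP hQ)
  obtain ⟨s, ⟨hs, d, hd, hsd⟩, ds⟩ := exists_hasRep W (sub_mem hP hQ)
  rw [← dp, ← dq, ← dr, ← ds]
  obtain ⟨e, he, hasm⟩ := exists_addSubMap_sym2x (W := WK W) P Q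
  refine maxDeg_add_eq (k := k) W hp hq hr hs fun i j ↦ xi_injective W ?_
  have hC : ((xi W : k[X] →+* FF W).comp C) = algebraMap k (FF W) :=
    RingHom.ext fun z ↦ by simp [xi]
  have hsym : ∀ (p q : Fin 2 → k[X]) (a b : FF W) (A B : (WK W).Point),
      (fun i ↦ xi W (p i)) = a • A.xRep → (fun i ↦ xi W (q i)) = b • B.xRep →
      (xi W : k[X] →+* FF W) ∘ sym2Vec p q = (a * b) • A.sym2x B := by
    intro p q a b A B hA hB
    rw [map_sym2Vec]
    funext i
    fin_cases i <;>
      simp [sym2Vec, Point.sym2x, congr_fun hA, congr_fun hB] <;> ring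
  have h1 : (xi W : k[X] →+* FF W) ∘ asmVec (W.map C) (sym2Vec p q) =
      ((a * b) ^ 2 * e) • (P + Q).sym2x (P - Q) := by
    rw [map_asmVec, hsym p q a b P Q hpa hqb, WeierstrassCurve.map_map, hC,
      mul_smul ((a * b) ^ 2), ← hasm, asmVec_eq, eval_addSubMap]
    funext i
    fin_cases i <;> simp <;> ring
  have h2 := hsym r s c d _ _ hrc hsd
  have h1' : ∀ i, xi W (asmVec (W.map C) (sym2Vec p q) i) = _ := fun i ↦ congr_fun h1 i
  have h2' : ∀ i, xi W (sym2Vec r s i) = _ := fun i ↦ congr_fun h2 i
  simp only [map_mul, h1', h2', Pi.smul_apply, smul_eq_mul]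
  ring

/-- The bilinear form attached to `degPt`. -/
def polarDeg (P Q : (WK W).Point) : ℤ := degPt W (P + Q) - degPt W P - degPt W Q

/-- A point and its negative have the same degree. -/
lemma degPt_neg {P : (WK W).Point} (hP : P ∈ evenPts W) : degPt W (-P) = degPt W P := by
  have h := degPt_add_add_sub W (zero_mem (evenPts W)) hP
  rw [zero_add, zero_sub, degPt_zero] at h
  lia

/-- The polar form is additive in the first variable. -/
lemma polarDeg_add_left {P Q R : (WK W).Point} (hP : P ∈ evenPts W) (hQ : Q ∈ evenPts W)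
    (hR : R ∈ evenPts W) : polarDeg W (P + Q) R = polarDeg W P R + polarDeg W Q R := by
  have h1 := degPt_add_add_sub W (add_mem hP hR) hQ
  have h2 := degPt_add_add_sub W hP (sub_mem hR hQ)
  have h3 := degPt_add_add_sub W hR hQ
  have h4 := degPt_add_add_sub W hP hQ
  rw [show P + R + Q = P + Q + R by abel, show P + R - Q = P + (R - Q) by abel] at h1
  rw [show P - (R - Q) = P + Q - R by abel] at h2
  have h5 := degPt_add_add_sub W (add_mem hP hQ) hR
  rw [show R + Q = Q + R by abel] at h3
  simp only [polarDeg]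
  lia

omit [IsAlgClosed k] [WeierstrassCurve.IsElliptic W] in
/-- The polar form is symmetric. -/
lemma polarDeg_comm (P Q : (WK W).Point) : polarDeg W P Q = polarDeg W Q P := by
  simp only [polarDeg, add_comm P Q]; ring

omit [IsAlgClosed k] [WeierstrassCurve.IsElliptic W] in
lemma polarDeg_zero_left (P : (WK W).Point) : polarDeg W 0 P = 0 := by simp [polarDeg]

/-- The polar form is odd in the first variable. -/
lemma polarDeg_neg_left {P Q : (WK W).Point} (hP : P ∈ evenPts W) (hQ : Q ∈ evenPts W) :
    polarDeg W (-P) Q = -polarDeg W P Q := by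
  have h := polarDeg_add_left W (neg_mem hP) hP hQ
  rw [neg_add_cancel, polarDeg_zero_left] at h
  lia

/-- The polar form commutes with integer multiples in the first variable. -/
lemma polarDeg_zsmul_left {P Q : (WK W).Point} (hP : P ∈ evenPts W) (hQ : Q ∈ evenPts W) (n : ℤ) :
    polarDeg W (n • P) Q = n * polarDeg W P Q := by
  induction n using Int.induction_on with
  | zero => simp [polarDeg_zero_left]
  | succ m ih =>
    rw [add_zsmul, one_zsmul, polarDeg_add_left W (zsmul_mem hP _) hP hQ, ih]; ring
  | pred m ih =>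
    rw [sub_zsmul, one_zsmul, polarDeg_add_left W (zsmul_mem hP _) (neg_mem hP) hQ,
      polarDeg_neg_left W hP hQ, ih]; ring

lemma polarDeg_self {P : (WK W).Point} (hP : P ∈ evenPts W) :
    polarDeg W P P = 2 * degPt W P := by
  have h := degPt_add_add_sub W hP hP
  rw [sub_self, degPt_zero] at h
  simp only [polarDeg]; lia

/-- `deg (n • P) = n² deg P`. -/
lemma degPt_zsmul {P : (WK W).Point} (hP : P ∈ evenPts W) (n : ℤ) :
    (degPt W (n • P) : ℤ) = n ^ 2 * degPt W P := by
  have h := polarDeg_self W (zsmul_mem hP n)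
  rw [polarDeg_zsmul_left W hP (zsmul_mem hP n), polarDeg_comm,
    polarDeg_zsmul_left W hP hP, polarDeg_self W hP] at h
  linarith

omit [IsAlgClosed k] [WeierstrassCurve.IsElliptic W] in
/-- `deg (P + Q)` in terms of the polar form. -/
lemma degPt_add {P Q : (WK W).Point} :
    (degPt W (P + Q) : ℤ) = degPt W P + degPt W Q + polarDeg W P Q := by
  simp [polarDeg]

/-- The degree form on the span of two even points. -/
lemma degPt_zsmul_add_zsmul {P Q : (WK W).Point} (hP : P ∈ evenPts W) (hQ : Q ∈ evenPts W)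
    (m n : ℤ) : (degPt W (m • P + n • Q) : ℤ) =
      m ^ 2 * degPt W P + m * n * polarDeg W P Q + n ^ 2 * degPt W Q := by
  rw [degPt_add, degPt_zsmul W hP, degPt_zsmul W hQ, polarDeg_zsmul_left W hP (zsmul_mem hQ n),
    polarDeg_comm, polarDeg_zsmul_left W hQ hP, polarDeg_comm W Q P]
  ring

/-! ## The associated embedding -/

omit [IsAlgClosed k] [WeierstrassCurve.IsElliptic W] in
lemma xRat_ne_C {P : (WK W).Point} (hd : degPt W P ≠ 0) : ¬∃ c, xRat W P = RatFunc.C c := by
  rintro ⟨c, hc⟩
  simp [degPt, ratHt, hc] at hd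

omit [IsAlgClosed k] in
/-- An even point of nonzero degree is the image of the generic point. -/
lemma exists_embed {P : (WK W).Point} (hP : P ∈ evenPts W) (hd : degPt W P ≠ 0) :
    ∃ ψ : FF W →ₐ[k] FF W, mapPt W ψ (gen W) = P ∧ ψ (xg W) = iota W (xRat W P) := by
  rcases P with _ | ⟨x, y, h⟩
  · exact absurd (degPt_zero W) hd
  · have hx := iota_xRat W hP rfl
    have ht : Transcendental k x := by
      rw [← hx]
      exact fun halg ↦ RatFunc.transcendental_of_ne_C _ (xRat_ne_C W hd)
        ((isAlgebraic_algHom_iff (iota W) (iota W).toRingHom.injective).mp halg)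
    refine ⟨embed x y h.1 ht, ?_, ?_⟩
    · simp [mapPt, gen]
    · rw [hx, embed_xg]

omit [IsAlgClosed k] in
/-- The field extension cut out by an even nonconstant point. -/
theorem finrank_fieldRange {P : (WK W).Point}
    {ψ : FF W →ₐ[k] FF W} (hψ : ψ (xg W) = iota W (xRat W P)) :
    Module.finrank ψ.fieldRange (FF W) = degPt W P := by
  set r := xRat W P with hr
  have h1 : ((IntermediateField.adjoin k {(RatFunc.X : RatFunc k)}).map (iota W)).map ψ =
      (IntermediateField.adjoin k {r}).map (iota W) := by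
    rw [IntermediateField.adjoin_map, IntermediateField.adjoin_map, IntermediateField.adjoin_map,
      Set.image_singleton, Set.image_singleton, Set.image_singleton]
    rw [show iota W RatFunc.X = xg W by rw [← RatFunc.algebraMap_X, iota_algebraMap]; simp [xi],
      hψ]
  rw [RatFunc.adjoin_X, ← AlgHom.fieldRange_eq_map] at h1
  have hrange : (⊤ : IntermediateField k (FF W)).map ψ = ψ.fieldRange :=
    (AlgHom.fieldRange_eq_map _).symm
  have h2 : IntermediateField.relfinrank ((iota W).fieldRange.map ψ) ψ.fieldRange = 2 := by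
    rw [← hrange, IntermediateField.relfinrank_map_map, IntermediateField.relfinrank_top_right,
      finrank_iota_range]
  have h3 : IntermediateField.relfinrank ((IntermediateField.adjoin k {r}).map (iota W))
      (iota W).fieldRange = degPt W P := by
    rw [AlgHom.fieldRange_eq_map, IntermediateField.relfinrank_map_map,
      IntermediateField.relfinrank_top_right, RatFunc.finrank_eq_max_natDegree]
    rfl
  rw [h1] at h2
  have hle1 : (IntermediateField.adjoin k {r}).map (iota W) ≤ ψ.fieldRange := by
    rw [← h1, AlgHom.fieldRange_eq_map ψ]; exact IntermediateField.map_mono ψ le_top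
  have hle2 : (IntermediateField.adjoin k {r}).map (iota W) ≤ (iota W).fieldRange := by
    rw [AlgHom.fieldRange_eq_map]; exact IntermediateField.map_mono _ le_top
  have h4 := IntermediateField.relfinrank_mul_finrank_top hle1
  have h5 := IntermediateField.relfinrank_mul_finrank_top hle2
  rw [h3, finrank_iota_range, ← h4, h2] at h5
  lia

omit [IsAlgClosed k] in
lemma mapPt_comm_sigma {P : (WK W).Point} (hP : P ∈ evenPts W) {ψ : FF W →ₐ[k] FF W}
    (hψ : mapPt W ψ (gen W) = P) : (sigma W).comp ψ = ψ.comp (sigma W) := by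
  have h1 : mapPt W (sigma W) (mapPt W ψ (gen W)) = mapPt W ψ (mapPt W (sigma W) (gen W)) := by
    rw [hψ, (mem_evenPts W).mp hP, (mem_evenPts W).mp (gen_mem_evenPts W), map_neg, hψ]
  simp only [gen, mapPt, pointHom_some, Point.some.injEq] at h1
  exact algHom_ext_gen W (by simpa using h1.1) (by simpa using h1.2)

omit [IsAlgClosed k] in
lemma mapPt_mem_evenPts {P Q : (WK W).Point} (hP : P ∈ evenPts W) (hQ : Q ∈ evenPts W)
    {ψ : FF W →ₐ[k] FF W} (hψ : mapPt W ψ (gen W) = P) : mapPt W ψ Q ∈ evenPts W := by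
  rw [mem_evenPts]
  have h := mapPt_comm_sigma W hP hψ
  rw [mapPt, mapPt, pointHom_comm (ψ : FF W →+* FF W) (map_algHom W ψ)
    (sigma W : FF W →+* FF W) (map_algHom W (sigma W)) (sigma W : FF W →+* FF W)
    (map_algHom W (sigma W)) (ψ : FF W →+* FF W) (map_algHom W ψ)
    (fun z ↦ AlgHom.congr_fun h z)]
  exact ((congr_arg (mapPt W ψ) ((mem_evenPts W).mp hQ)).trans (map_neg _ _))

omit [IsAlgClosed k] in
/-- Degrees multiply under composition. -/
theorem degPt_mapPt {P Q : (WK W).Point} (hP : P ∈ evenPts W) (hdP : degPt W P ≠ 0)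
    (hQ : Q ∈ evenPts W) {ψ : FF W →ₐ[k] FF W} (hψ : mapPt W ψ (gen W) = P) :
    degPt W (mapPt W ψ Q) = degPt W P * degPt W Q := by
  have hmem := mapPt_mem_evenPts W hP hQ hψ
  have hψx : ψ (xg W) = iota W (xRat W P) := by
    rcases P with _ | ⟨x, y, h⟩
    · exact absurd (degPt_zero W) hdP
    · simp only [gen, mapPt, pointHom_some, Point.some.injEq] at hψ
      rw [iota_xRat W hP rfl]; simpa using hψ.1
  rcases Q with _ | ⟨x, y, h⟩
  · rw [← Point.zero_def, map_zero, degPt_zero, mul_zero]
  by_cases hdQ : degPt W (Point.some x y h) = 0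
  · rw [hdQ, mul_zero]
    obtain ⟨c, hc⟩ := (RatFunc.eq_C_iff (xRat W (Point.some x y h))).mpr
      ⟨by simp only [degPt, ratHt] at hdQ; lia, by simp only [degPt, ratHt] at hdQ; lia⟩
    have hx := iota_xRat W hQ rfl
    rw [hc, ← RatFunc.algebraMap_eq_C, AlgHom.commutes] at hx
    rw [mapPt, pointHom_some] at hmem ⊢
    rw [degPt_some_eq W hmem (r := RatFunc.C c) (by
      rw [← RatFunc.algebraMap_eq_C, AlgHom.commutes, ← hx, RingHom.coe_coe, AlgHom.commutes])]
    simp [ratHt]
  obtain ⟨φ, hφ, hφx⟩ := exists_embed W hQ hdQ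
  have hcomp : mapPt W (ψ.comp φ) (gen W) = mapPt W ψ (Point.some x y h) := by
    rw [← hφ]
    exact (pointHom_pointHom _ _ _ _ _ _ (fun z ↦ rfl) _).symm
  have key : Module.finrank (ψ.comp φ).fieldRange (FF W) =
      degPt W P * degPt W (Point.some x y h) := by
    have h1 : IntermediateField.relfinrank (φ.fieldRange.map ψ) ψ.fieldRange =
        degPt W (Point.some x y h) := by
      rw [AlgHom.fieldRange_eq_map ψ, IntermediateField.relfinrank_map_map,
        IntermediateField.relfinrank_top_right, finrank_fieldRange W hφx]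
    have h2 : φ.fieldRange.map ψ = (ψ.comp φ).fieldRange := AlgHom.map_fieldRange φ ψ
    rw [← h2, ← IntermediateField.relfinrank_mul_finrank_top (B := ψ.fieldRange) (by
        rw [AlgHom.fieldRange_eq_map ψ]; exact IntermediateField.map_mono ψ le_top),
      h1, finrank_fieldRange W hψx, mul_comm]
  have hx' : (ψ.comp φ) (xg W) = iota W (xRat W (mapPt W ψ (Point.some x y h))) := by
    rw [mapPt, pointHom_some] at hmem ⊢
    rw [iota_xRat W hmem rfl, AlgHom.comp_apply, hφx, iota_xRat W hQ rfl]
    rfl
  by_cases hd : degPt W (mapPt W ψ (Point.some x y h)) = 0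
  · exfalso
    obtain ⟨c, hc⟩ := (RatFunc.eq_C_iff (xRat W (mapPt W ψ (Point.some x y h)))).mpr
      ⟨by simp only [degPt, ratHt] at hd; lia, by simp only [degPt, ratHt] at hd; lia⟩
    rw [hc, ← RatFunc.algebraMap_eq_C, AlgHom.commutes, ← (ψ.comp φ).commutes c] at hx'
    exact transcendental_xg W ((ψ.comp φ).toRingHom.injective hx' ▸ isAlgebraic_algebraMap c)
  rw [← key, finrank_fieldRange W hx']

end Fermat.Agent.ECFrobenius
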