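import Fermat.Agent.ECFrobenius.Degree
import Mathlib.FieldTheory.PrimitiveElement
import Mathlib.FieldTheory.PurelyInseparable.Basic
import Mathlib.FieldTheory.Fixed

/-!
# Translations and the size of kernels
-/

set_option autoImplicit false

noncomputable section

open scoped Classical
open Polynomial WeierstrassCurve WeierstrassCurve.Affine

namespace Fermat.Agent.ECFrobenius

variable {k : Type*} [Field k] [IsAlgClosed k] [DecidableEq k] (W : WeierstrassCurve.Affine k)
  [W.IsElliptic]
variable (L : Type*) [Field L] [Algebra k L] [DecidableEq L]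

/-- The curve over an extension. -/
abbrev WL : WeierstrassCurve.Affine L := W.map (algebraMap k L)

/-- Constant points. -/
def cst : W.Point →+ (WL W L).Point := pointHom (algebraMap k L) rfl

omit [IsAlgClosed k] [DecidableEq k] [WeierstrassCurve.IsElliptic W] [DecidableEq L] in
lemma map_algHom_gen (f : FF W →ₐ[k] L) : (WK W).map (f : FF W →+* L) = WL W L := by
  show WeierstrassCurve.map (WeierstrassCurve.map W (algebraMap k (FF W))) (f : FF W →+* L) =
    WeierstrassCurve.map W (algebraMap k L)
  rw [WeierstrassCurve.map_map, AlgHom.comp_algebraMap]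

/-- The action of an embedding of the function field on points. -/
def mapPtL (f : FF W →ₐ[k] L) : (WK W).Point →+ (WL W L).Point :=
  pointHom (f : FF W →+* L) (map_algHom_gen W L f)

omit [IsAlgClosed k] [WeierstrassCurve.IsElliptic W] in
/-- Constant points embed. -/
lemma cst_injective : Function.Injective (cst W L) := pointHom_injective _ _

variable {L}

omit [IsAlgClosed k] [WeierstrassCurve.IsElliptic W] in
/-- Maps of function fields fix constant points. -/
lemma mapPtL_cst (f : FF W →ₐ[k] L) (P : W.Point) :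
    mapPtL W L f (cst W (FF W) P) = cst W L P :=
  pointHom_pointHom _ _ _ _ _ _ (fun a ↦ by simp) P

omit [IsAlgClosed k] [DecidableEq k] in
lemma algHom_eq_of_mapPtL_gen_eq {f g : FF W →ₐ[k] L}
    (h : mapPtL W L f (gen W) = mapPtL W L g (gen W)) : f = g := by
  simp only [gen, mapPtL, pointHom_some, Point.some.injEq] at h
  exact algHom_ext_gen W (by simpa using h.1) (by simpa using h.2)

/-- A point is constant or the image of the generic point. -/
lemma mem_range_cst_or_exists_embed (Q : (WL W L).Point) :
    (∃ P, cst W L P = Q) ∨ ∃ f : FF W →ₐ[k] L, mapPtL W L f (gen W) = Q := by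
  rcases Q with _ | ⟨x, y, h⟩
  · exact .inl ⟨0, rfl⟩
  by_cases hx : Transcendental k x
  · exact .inr ⟨embed x y h.1 hx, by simp [mapPtL, gen]⟩
  refine .inl ?_
  rw [transcendental_iff] at hx
  push Not at hx
  obtain ⟨p, hp, hp0⟩ := hx
  obtain ⟨a, ha⟩ : ∃ a : k, algebraMap k L a = x := by
    have hint : IsIntegral k x := IsAlgebraic.isIntegral ⟨p, hp0, hp⟩
    exact minpoly.mem_range_of_degree_eq_one k x
      (IsAlgClosed.degree_eq_one_of_irreducible k (minpoly.irreducible hint))
  obtain ⟨b, hb⟩ : ∃ b : k, algebraMap k L b = y := by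
    have he := (equation_iff' ..).mp h.1
    simp only [WeierstrassCurve.map_a₁, WeierstrassCurve.map_a₂, WeierstrassCurve.map_a₃,
      WeierstrassCurve.map_a₄, WeierstrassCurve.map_a₆, ← ha] at he
    let q : k[X] := Cubic.toPoly ⟨0, 1, W.a₁ * a + W.a₃,
      -(a ^ 3 + W.a₂ * a ^ 2 + W.a₄ * a + W.a₆)⟩
    have hint : IsIntegral k y := ⟨q, Cubic.monic_of_b_eq_one', by
      simp [q, Cubic.toPoly]; linear_combination he⟩
    exact minpoly.mem_range_of_degree_eq_one k y
      (IsAlgClosed.degree_eq_one_of_irreducible k (minpoly.irreducible hint))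
  subst ha hb
  exact ⟨.some a b ((W.map_nonsingular (algebraMap k L).injective a b).mp h), rfl⟩

omit [IsAlgClosed k] in
/-- The abscissa of the generic point is not constant. -/
lemma mapPtL_gen_ne_cst (f : FF W →ₐ[k] L) (P : W.Point) :
    mapPtL W L f (gen W) ≠ cst W L P := by
  intro h
  rcases P with _ | ⟨a, b, hab⟩
  · simp only [gen, mapPtL, pointHom_some, cst, ← Point.zero_def, pointHom_zero] at h
    exact Point.some_ne_zero _ h
  · simp only [gen, mapPtL, pointHom_some, cst, Point.some.injEq] at h
    have h' : f (xg W) = f (algebraMap k (FF W) a) := by rw [f.commutes]; simpa using h.1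
    exact transcendental_xg W (f.toRingHom.injective h' ▸ isAlgebraic_algebraMap a)

lemma exists_translation (P : W.Point) :
    ∃ f : FF W →ₐ[k] FF W, mapPtL W (FF W) f (gen W) = gen W + cst W (FF W) P := by
  rcases mem_range_cst_or_exists_embed W (gen W + cst W (FF W) P) with ⟨Q, hQ⟩ | h
  · exfalso
    refine mapPtL_gen_ne_cst W (AlgHom.id k (FF W)) (Q - P) ?_
    rw [map_sub, hQ, add_sub_cancel_right]
    simp [gen, mapPtL]
  · exact h

/-- The translation by `P` as an endomorphism of the function field. -/
def transl (P : W.Point) : FF W →ₐ[k] FF W := (exists_translation W P).choose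

/-- The defining property of `transl`. -/
lemma mapPtL_transl_gen (P : W.Point) :
    mapPtL W (FF W) (transl W P) (gen W) = gen W + cst W (FF W) P :=
  (exists_translation W P).choose_spec

omit [IsAlgClosed k] [DecidableEq k] [WeierstrassCurve.IsElliptic W] in
lemma mapPtL_id (Q : (WK W).Point) : mapPtL W (FF W) (AlgHom.id k (FF W)) Q = Q := by
  rcases Q with _ | ⟨x, y, h⟩
  · rfl
  · simp [mapPtL]

omit [IsAlgClosed k] [DecidableEq k] [WeierstrassCurve.IsElliptic W] in
lemma mapPtL_comp (f : FF W →ₐ[k] L) (g : FF W →ₐ[k] FF W) (Q : (WK W).Point) :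
    mapPtL W L (f.comp g) Q = mapPtL W L f (mapPtL W (FF W) g Q) :=
  (pointHom_pointHom _ _ _ _ _ _ (fun _ ↦ rfl) Q).symm

lemma transl_add (P Q : W.Point) : transl W (P + Q) = (transl W P).comp (transl W Q) := by
  refine algHom_eq_of_mapPtL_gen_eq W ?_
  rw [mapPtL_comp, mapPtL_transl_gen, mapPtL_transl_gen, map_add, map_add, mapPtL_transl_gen,
    mapPtL_cst]
  abel

lemma transl_zero : transl W 0 = AlgHom.id k (FF W) := by
  refine algHom_eq_of_mapPtL_gen_eq W ?_
  rw [mapPtL_transl_gen, mapPtL_id, map_zero, add_zero]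

/-- Translations as automorphisms. -/
def translEquiv (P : W.Point) : FF W ≃ₐ[k] FF W :=
  AlgEquiv.ofAlgHom (transl W P) (transl W (-P))
    (by rw [← transl_add, add_neg_cancel, transl_zero])
    (by rw [← transl_add, neg_add_cancel, transl_zero])

lemma transl_injective : Function.Injective (transl W) := by
  intro P Q h
  have := mapPtL_transl_gen W P
  rw [h, mapPtL_transl_gen] at this
  exact cst_injective W _ (add_left_cancel this).symm

/-- Translations as a homomorphism. -/
def translHom : Multiplicative W.Point →* (FF W ≃ₐ[k] FF W) where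
  toFun P := translEquiv W P.toAdd
  map_one' := AlgEquiv.ext fun z ↦ by
    simp [translEquiv, transl_zero]
  map_mul' P Q := AlgEquiv.ext fun z ↦ by
    simp [translEquiv, transl_add]

lemma translHom_injective : Function.Injective (translHom W) := fun P Q h ↦ by
  refine Multiplicative.toAdd.injective (transl_injective W ?_)
  exact AlgHom.ext fun z ↦ AlgEquiv.congr_fun h z

/-- A finite group of translations fixing a point has order dividing the degree of the point. -/
theorem natCard_dvd_degPt (H : AddSubgroup W.Point) [Finite H] {Φ : (WK W).Point}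
    (hΦ : Φ ∈ evenPts W) (hd : degPt W Φ ≠ 0)
    (hfix : ∀ P ∈ H, mapPtL W (FF W) (transl W P) Φ = Φ) : Nat.card H ∣ degPt W Φ := by
  obtain ⟨ψ, hψ, hψx⟩ := exists_embed W hΦ hd
  let G : Subgroup (FF W ≃ₐ[k] FF W) := (AddSubgroup.toSubgroup H).map (translHom W)
  have e : (AddSubgroup.toSubgroup H) ≃* G :=
    Subgroup.equivMapOfInjective _ _ (translHom_injective W)
  have hcard : Nat.card G = Nat.card H := (Nat.card_congr e.toEquiv).symm
  have : Finite G := Finite.of_equiv H e.toEquiv
  let := Fintype.ofFinite G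
  have hle : ψ.fieldRange.toSubfield ≤ FixedPoints.subfield G (FF W) := by
    intro z hz g
    obtain ⟨w, rfl⟩ := hz
    obtain ⟨g, P, hP, rfl⟩ := g
    have hcomp : (transl W P.toAdd).comp ψ = ψ := algHom_eq_of_mapPtL_gen_eq W <| by
      rw [mapPtL_comp]
      exact (congr_arg _ hψ).trans ((hfix _ hP).trans hψ.symm)
    exact AlgHom.congr_fun hcomp w
  refine ⟨Subfield.relfinrank ψ.fieldRange.toSubfield (FixedPoints.subfield G (FF W)), ?_⟩
  rw [← finrank_fieldRange W hψx, ← hcard, Nat.card_eq_fintype_card,
    ← FixedPoints.finrank_eq_card G (FF W), mul_comm]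
  exact (Subfield.relfinrank_mul_finrank_top hle).symm

/-- Multiplication by an `n` invertible in `k` has exactly `n²` roots. -/
theorem natCard_torsionBy {n : ℕ} (hn : (n : k) ≠ 0) :
    Nat.card (Submodule.torsionBy ℤ W.Point (n : ℤ)) = n ^ 2 := by
  have hn0 : n ≠ 0 := fun h ↦ hn (by simp [h])
  have hdG : degPt W (gen W) = 1 := by
    rw [exists_rep_of_ratio W (gen_mem_evenPts W) (P := gen W) rfl (N := X) (D := 1)
      (fun a ha ↦ by simpa using congr_fun ha 1) one_ne_zero (by simp [xi])]
    simp
  set Φ := (n : ℤ) • gen W with hΦdef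
  have hΦ : Φ ∈ evenPts W := zsmul_mem (gen_mem_evenPts W) _
  have hdeg : degPt W Φ = n ^ 2 := by
    have := degPt_zsmul W (gen_mem_evenPts W) n
    rw [hdG, Nat.cast_one, mul_one] at this
    exact_mod_cast this
  have hd : degPt W Φ ≠ 0 := by rw [hdeg]; positivity
  obtain ⟨ψ, hψ, hψx⟩ := exists_embed W hΦ hd
  set E := ψ.fieldRange with hE
  have hfr : Module.finrank E (FF W) = n ^ 2 := (finrank_fieldRange W hψx).trans hdeg
  have : FiniteDimensional E (FF W) :=
    FiniteDimensional.of_finrank_pos (by rw [hfr]; positivity)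
  have : Algebra.IsSeparable E (FF W) := by
    rw [isSeparable_iff_finInsepDegree_eq_one]
    have : CharP E (ringChar k) := charP_of_injective_algebraMap (algebraMap k E).injective _
    by_cases hp : ringChar k = 0
    · have : CharP k 0 := ringChar.eq_iff.mp hp
      have : CharZero k := CharP.charP_to_charZero k
      have : CharZero E := charZero_of_injective_algebraMap (algebraMap k E).injective
      exact Algebra.IsSeparable.finInsepDegree_eq E (FF W)
    · have := Fact.mk ((CharP.char_is_prime_or_zero k (ringChar k)).resolve_right hp)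
      have : ExpChar E (ringChar k) := ExpChar.prime Fact.out
      obtain ⟨m, hm⟩ := IsPurelyInseparable.finrank_eq_pow (separableClosure E (FF W)) (FF W)
        (ringChar k)
      change Module.finrank (separableClosure E (FF W)) (FF W) = 1
      rcases Nat.eq_zero_or_pos m with rfl | hmpos
      · simpa using hm
      exfalso
      refine hn ((ringChar.spec k n).mpr ?_)
      have hdvd : ringChar k ∣ n ^ 2 := by
        rw [← hfr, ← Field.finSepDegree_mul_finInsepDegree]
        exact Dvd.dvd.mul_left (show ringChar k ∣ Field.finInsepDegree E (FF W) by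
          rw [Field.finInsepDegree, hm]; exact dvd_pow_self _ hmpos.ne') _
      exact (Fact.out : (ringChar k).Prime).dvd_of_dvd_pow hdvd
  set Ω := AlgebraicClosure (FF W)
  let ι : FF W →ₐ[k] Ω := IsScalarTower.toAlgHom k (FF W) Ω
  have hfixE : ∀ (P : W.Point), (n : ℤ) • P = 0 → (transl W P).comp ψ = ψ := fun P hP ↦ by
    refine algHom_eq_of_mapPtL_gen_eq W ?_
    rw [mapPtL_comp]
    refine (congr_arg _ hψ).trans (Eq.trans ?_ hψ.symm)
    rw [hΦdef, map_zsmul, mapPtL_transl_gen, smul_add, ← map_zsmul, hP, map_zero, add_zero]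
  let toEmb : Submodule.torsionBy ℤ W.Point (n : ℤ) → (FF W →ₐ[E] Ω) := fun P ↦
    { (ι.comp (transl W P.1)).toRingHom with
      commutes' := by
        rintro ⟨z, w, rfl⟩
        show ι (transl W P.1 (ψ w)) = ι (ψ w)
        exact congr_arg ι (AlgHom.congr_fun (hfixE P.1 (Submodule.mem_torsionBy_iff _ _ |>.mp P.2)) w) }
  have hinj : Function.Injective toEmb := fun P Q h ↦ by
    refine Subtype.ext (transl_injective W (AlgHom.ext fun z ↦ ?_))
    exact ι.toRingHom.injective (AlgHom.congr_fun h z)
  have hsurj : Function.Surjective toEmb := by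
    intro g
    let g' : FF W →ₐ[k] Ω := g.restrictScalars k
    have hg' : g'.comp ψ = ι.comp ψ := AlgHom.ext fun w ↦
      g.commutes (⟨ψ w, w, rfl⟩ : E)
    set Q := mapPtL W Ω g' (gen W) - mapPtL W Ω ι (gen W) with hQdef
    have hnQ : (n : ℤ) • Q = 0 := by
      rw [hQdef, smul_sub, ← map_zsmul, ← map_zsmul, ← hΦdef,
        show Φ = mapPtL W (FF W) ψ (gen W) from hψ.symm, ← mapPtL_comp, ← mapPtL_comp, hg', sub_self]
    rcases mem_range_cst_or_exists_embed W Q with ⟨P, hP⟩ | ⟨f, hf⟩
    · have hP0 : (n : ℤ) • P = 0 := cst_injective W Ω (by rw [map_zsmul, hP, hnQ, map_zero])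
      refine ⟨⟨P, (Submodule.mem_torsionBy_iff _ _).mpr hP0⟩, AlgHom.ext fun z ↦ ?_⟩
      have : ι.comp (transl W P) = g' := algHom_eq_of_mapPtL_gen_eq W <| by
        rw [mapPtL_comp, mapPtL_transl_gen, map_add, mapPtL_cst, hP, hQdef, add_sub_cancel]
      exact AlgHom.congr_fun this z
    · exfalso
      rw [← hf, ← map_zsmul, ← hΦdef, ← map_zero (mapPtL W Ω f)] at hnQ
      have := pointHom_injective _ _ hnQ
      exact hd (this ▸ degPt_zero W)
  rw [Nat.card_congr (Equiv.ofBijective _ ⟨hinj, hsurj⟩), Nat.card_eq_fintype_card,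
    AlgHom.card, hfr]

end Fermat.Agent.ECFrobenius
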