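import Fermat.Agent.ECFrobenius.Manin
import Fermat.Agent.ECFrobenius.Translation
import Fermat.Prelude.Def_FLTPrelim_GaloisRep

/-!
# The quadratic relation satisfied by Frobenius, and the Hasse bound
-/

set_option autoImplicit false

noncomputable section

open scoped Classical
open WeierstrassCurve WeierstrassCurve.Affine

namespace Fermat.Agent.ECFrobenius

variable {F k : Type*} [Field F] [Finite F] [Field k] [IsAlgClosed k] [DecidableEq k] [Algebra F k]
  (W₀ : WeierstrassCurve F) [W₀.IsElliptic]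

local notation "W" => Wbar W₀ k
local notation "G" => gen (Wbar W₀ k)
local notation "Φ" => Frob (k := k) W₀

omit [Finite F] [DecidableEq k] in
lemma degPt_gen : degPt W G = 1 := by
  rw [exists_rep_of_ratio W (gen_mem_evenPts W) (P := G) rfl (N := Polynomial.X) (D := 1)
    (fun a ha ↦ by simpa using congr_fun ha 1) one_ne_zero (by simp [xi])]
  simp

omit [DecidableEq k] in
lemma degPt_Frob_gen : degPt W (Φ G) = Nat.card F := by
  rw [degPt_Frob W₀ (gen_mem_evenPts W), degPt_gen, mul_one]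

omit [W₀.IsElliptic] in
lemma one_le_card : 1 ≤ Nat.card W₀.toAffine.Point :=
  Nat.one_le_iff_ne_zero.mpr Nat.card_pos.ne'

omit [DecidableEq k] in
/-- The trace is the polarisation of the degree at `(1, π)`. -/
lemma polarDeg_gen_Frob : polarDeg W G (Φ G) = W₀.traceOfFrobenius := by
  have hG := gen_mem_evenPts W
  have hF := Frob_mem_evenPts W₀ hG
  have h := degPt_add W (P := G) (Q := -(Φ G))
  rw [← sub_eq_add_neg, degPt_gen_sub_Frob, degPt_gen, degPt_neg W hF, degPt_Frob_gen,
    polarDeg_comm, polarDeg_neg_left W hF hG, polarDeg_comm W (Φ G)] at h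
  rw [WeierstrassCurve.traceOfFrobenius, WeierstrassCurve.card, h]
  push_cast
  ring

omit [DecidableEq k] in
/-- Degrees of linear polynomials in Frobenius. -/
lemma degPt_linear (m n : ℤ) : (degPt W (m • G + n • Φ G) : ℤ) =
    m ^ 2 + m * n * W₀.traceOfFrobenius + n ^ 2 * Nat.card F := by
  have hG := gen_mem_evenPts W
  rw [degPt_zsmul_add_zsmul W hG (Frob_mem_evenPts W₀ hG), degPt_gen, degPt_Frob_gen,
    polarDeg_gen_Frob]
  push_cast
  ring

/-- The Hasse bound. -/
theorem traceOfFrobenius_sq_le (k : Type*) [Field k] [IsAlgClosed k] [Algebra F k] :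
    W₀.traceOfFrobenius ^ 2 ≤ 4 * Nat.card F := by
  have h := degPt_linear (k := k) W₀ (-W₀.traceOfFrobenius) 2
  nlinarith

omit [DecidableEq k] in
/-- The degree of `1 - π²`. -/
lemma degPt_gen_sub_Frob_sq :
    (degPt W (G - Φ (Φ G)) : ℤ) =
      ((Nat.card F : ℤ) + 1) ^ 2 - W₀.traceOfFrobenius ^ 2 := by
  have hG := gen_mem_evenPts W
  have hF := Frob_mem_evenPts W₀ hG
  have hd : degPt W (G - Φ G) ≠ 0 := by
    rw [degPt_gen_sub_Frob]; exact Nat.one_le_iff_ne_zero.mp (one_le_card W₀)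
  obtain ⟨ψ, hψ, -⟩ := exists_embed W (sub_mem hG hF) hd
  have hcomp : mapPt W ψ (G + Φ G) = G - Φ (Φ G) := by
    rw [map_add, ← Frob_mapPt, hψ, map_sub]
    abel
  rw [← hcomp, degPt_mapPt W (sub_mem hG hF) hd (add_mem hG hF) hψ, degPt_gen_sub_Frob,
    Nat.cast_mul]
  have h1 := degPt_linear (k := k) W₀ 1 1
  rw [one_zsmul, one_zsmul] at h1
  rw [h1, WeierstrassCurve.traceOfFrobenius, WeierstrassCurve.card]
  ring

/-- The endomorphism `π² - a π + q` evaluated at the generic point. -/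
def relPt : (WK W).Point :=
  Φ (Φ G) + (-W₀.traceOfFrobenius) • Φ G + (Nat.card F : ℤ) • G

omit [IsAlgClosed k] in
omit [DecidableEq k] in
lemma relPt_mem_evenPts : relPt (k := k) W₀ ∈ evenPts W := by
  have hG := gen_mem_evenPts W
  exact add_mem (add_mem (Frob_mem_evenPts W₀ (Frob_mem_evenPts W₀ hG))
    (zsmul_mem (Frob_mem_evenPts W₀ hG) _)) (zsmul_mem hG _)

omit [DecidableEq k] in
lemma degPt_relPt : degPt W (relPt (k := k) W₀) = 0 := by
  have hG := gen_mem_evenPts W
  have hF := Frob_mem_evenPts W₀ hG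
  have hF2 := Frob_mem_evenPts W₀ hF
  set t := W₀.traceOfFrobenius with ht
  set q : ℤ := (Nat.card F : ℤ) with hq
  set A := Φ (Φ G) + (-t) • Φ G with hA
  have hAmem : A ∈ evenPts W := add_mem hF2 (zsmul_mem hF _)
  have hA' : A = Φ ((-t) • G + (1 : ℤ) • Φ G) := by
    rw [map_add, one_zsmul, map_zsmul, hA, add_comm]
  have hdA : (degPt W A : ℤ) = q ^ 2 := by
    rw [hA', degPt_Frob W₀ (add_mem (zsmul_mem hG _) (zsmul_mem hF _)), Nat.cast_mul,
      degPt_linear]
    ring
  have hB2 : polarDeg W (Φ (Φ G)) G = t ^ 2 - 2 * q := by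
    have h := degPt_add W (P := G) (Q := -(Φ (Φ G)))
    rw [← sub_eq_add_neg, degPt_gen_sub_Frob_sq, degPt_gen, degPt_neg W hF2, degPt_Frob W₀ hF,
      degPt_Frob_gen, polarDeg_comm, polarDeg_neg_left W hF2 hG] at h
    push_cast at h
    linarith
  have hB : polarDeg W A (q • G) = q * (-2 * q) := by
    rw [polarDeg_comm, polarDeg_zsmul_left W hG hAmem, polarDeg_comm, hA,
      polarDeg_add_left W hF2 (zsmul_mem hF _) hG, hB2, polarDeg_zsmul_left W hF hG,
      polarDeg_comm W (Φ G), polarDeg_gen_Frob]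
    ring
  have h := degPt_add W (P := A) (Q := q • G)
  rw [hB, hdA, degPt_zsmul W hG, degPt_gen] at h
  show degPt W (A + q • G) = 0
  push_cast at h
  nlinarith

lemma exists_cst_eq_relPt : ∃ C : (W).Point, cst W (FF W) C = relPt W₀ := by
  rcases mem_range_cst_or_exists_embed W (relPt (k := k) W₀) with h | ⟨f, hf⟩
  · exact h
  exfalso
  have hd := degPt_relPt (k := k) W₀
  have hmem := relPt_mem_evenPts (k := k) W₀
  rw [← hf] at hd hmem
  simp only [gen, mapPtL, pointHom_some] at hd hmem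
  obtain ⟨c, hc⟩ := (RatFunc.eq_C_iff (xRat W (Point.some _ _ _))).mpr
    ⟨Nat.le_zero.mp ((le_max_left _ _).trans hd.le), Nat.le_zero.mp ((le_max_right _ _).trans hd.le)⟩
  have hx := iota_xRat W hmem rfl
  rw [hc, ← RatFunc.algebraMap_eq_C, AlgHom.commutes, ← f.commutes c, RingHom.coe_coe] at hx
  exact transcendental_xg W (f.toRingHom.injective hx ▸ isAlgebraic_algebraMap c)

/-- The Frobenius on `k`-points. -/
def frk : (W).Point →+ (W).Point :=
  pointHom (powHom F (algebraMap F k)) (by ext <;> exact powHom_fix F (algebraMap F k) _)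

omit [IsAlgClosed k] [W₀.IsElliptic] in
lemma Frob_cst (P : (W).Point) : Φ (cst W (FF W) P) = cst W (FF W) (frk W₀ P) :=
  pointHom_comm _ _ _ _ _ _ _ _ (fun z ↦ by simp) P

omit [IsAlgClosed k] [W₀.IsElliptic] in
omit [DecidableEq k] in
lemma mapPtL_Frob (f : FF W →ₐ[k] FF W) (P : (WK W).Point) :
    mapPtL W (FF W) f (Φ P) = Φ (mapPtL W (FF W) f P) :=
  (Frob_mapPt W₀ f P).symm

/-- `π² - a π + q = 0` on `k`-points. -/
theorem frk_relation (P : (W).Point) :
    frk W₀ (frk W₀ P) - W₀.traceOfFrobenius • frk W₀ P + (Nat.card F : ℤ) • P = 0 := by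
  obtain ⟨C, hC⟩ := exists_cst_eq_relPt (k := k) W₀
  have h1 : mapPtL W (FF W) (transl W P) (relPt W₀) = relPt W₀ + cst W (FF W)
      (frk W₀ (frk W₀ P) + (-W₀.traceOfFrobenius) • frk W₀ P + (Nat.card F : ℤ) • P) := by
    simp only [relPt, map_add, map_zsmul, mapPtL_Frob, mapPtL_transl_gen, Frob_cst, smul_add]
    abel
  rw [← hC, mapPtL_cst, left_eq_add, ← map_zero (cst W (FF W))] at h1
  have h2 := cst_injective W (FF W) h1
  rwa [neg_smul, ← sub_eq_add_neg] at h2

section statement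

variable (psi : k →ₐ[F] k) (hpsi : ∀ a, psi a = a ^ Nat.card F)

include hpsi

omit [IsAlgClosed k] [W₀.IsElliptic] in
/-- The map induced by `a ↦ a^#F` is the Frobenius of the curve. -/
lemma map_eq_frk (P : (W₀⁄k).Point) : Point.map psi P = frk W₀ P := by
  rcases P with _ | ⟨x, y, h⟩
  · rfl
  · refine (Point.map_some psi h).trans ?_
    simp [frk, hpsi]

/-- Frobenius satisfies `X² - a X + q` on the points over an algebraically closed field. -/
theorem frobenius_relation (P : (W₀⁄k).Point) :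
    Point.map psi (Point.map psi P) - W₀.traceOfFrobenius • Point.map psi P +
      (Nat.card F : ℤ) • P = 0 := by
  rw [map_eq_frk W₀ psi hpsi, map_eq_frk W₀ psi hpsi]
  exact frk_relation W₀ P

end statement

/-- If `π` acts as the integer `s` on `E[j]`, then `j²` divides `deg (π - s)`. -/
theorem sq_dvd_of_frk_eq_zsmul {j : ℕ} (hj : (j : k) ≠ 0) (s : ℤ)
    (hs : ∀ P : (W).Point, (j : ℤ) • P = 0 → frk W₀ P = s • P) :
    (j : ℤ) ^ 2 ∣ s ^ 2 - W₀.traceOfFrobenius * s + Nat.card F := by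
  have hG := gen_mem_evenPts W
  set T := (-s) • G + (1 : ℤ) • Φ G with hT
  have hd : (degPt W T : ℤ) = s ^ 2 - W₀.traceOfFrobenius * s + Nat.card F := by
    rw [hT, degPt_linear]; ring
  by_cases h0 : degPt W T = 0
  · rw [← hd, h0, Nat.cast_zero]; exact dvd_zero _
  let H := (Submodule.torsionBy ℤ (W).Point (j : ℤ)).toAddSubgroup
  have hcard : Nat.card H = j ^ 2 := natCard_torsionBy W hj
  have : Finite H := Nat.finite_of_card_ne_zero (by
    rw [hcard]; exact pow_ne_zero _ fun h ↦ hj (by simp [h]))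
  have hdvd := natCard_dvd_degPt W H
    (add_mem (zsmul_mem hG _) (zsmul_mem (Frob_mem_evenPts W₀ hG) _)) h0 (fun P hP ↦ by
      have hP' := hs P ((Submodule.mem_torsionBy_iff _ _).mp hP)
      rw [map_add, map_zsmul, map_zsmul, mapPtL_Frob, mapPtL_transl_gen, map_add, Frob_cst, hP',
        map_zsmul]
      module)
  rw [hcard] at hdvd
  rw [← hd]
  exact_mod_cast hdvd

end Fermat.Agent.ECFrobenius
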