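import Fermat.Agent.ECFrobenius.Degree
import Fermat.Prelude.Def_FLTPrelim_Modularity
import Mathlib.FieldTheory.Finite.Basic
import Mathlib.RingTheory.Polynomial.UniqueFactorization
import Mathlib.RingTheory.IntegralClosure.IntegrallyClosed

/-!
# The degree of `1 - π` is the number of rational points (Manin's computation)
-/

set_option autoImplicit false

noncomputable section

open scoped Classical
open Polynomial WeierstrassCurve WeierstrassCurve.Affine

namespace Fermat.Agent.ECFrobenius

section powHom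

variable (F : Type*) [Field F] [Finite F]

/-- `x ↦ x ^ #F` on an algebra over the finite field `F`. -/
def powHom {R : Type*} [CommRing R] [Nontrivial R] (f : F →+* R) : R →+* R where
  toFun x := x ^ Nat.card F
  map_one' := one_pow _
  map_mul' x y := mul_pow x y _
  map_zero' := zero_pow Nat.card_pos.ne'
  map_add' x y := by
    have := Fintype.ofFinite F
    obtain ⟨p, hchar, n, hp, hcard⟩ := FiniteField.card' F
    have := Fact.mk hp
    have : CharP R p := charP_of_injective_ringHom f.injective p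
    have : ExpChar R p := ExpChar.prime hp
    rw [Nat.card_eq_fintype_card, hcard]
    exact add_pow_expChar_pow x y p n

@[simp] lemma powHom_apply {R : Type*} [CommRing R] [Nontrivial R] (f : F →+* R) (x : R) :
    powHom F f x = x ^ Nat.card F := rfl

/-- Elements of `F` are fixed by `x ↦ x^#F`. -/
lemma powHom_fix {R : Type*} [CommRing R] [Nontrivial R] (f : F →+* R) (a : F) :
    (f a) ^ Nat.card F = f a := by
  have := Fintype.ofFinite F
  rw [← map_pow, Nat.card_eq_fintype_card, FiniteField.pow_card]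

omit [Finite F] in
/-- `X^#F - X` splits over `F`. -/
lemma prod_X_sub_C_eq [Fintype F] : ∏ a : F, (X - C a) = (X ^ Fintype.card F - X : F[X]) := by
  have hmonic : (X ^ Fintype.card F - X : F[X]).Monic :=
    monic_X_pow_sub (degree_X_le.trans_lt (by exact_mod_cast Fintype.one_lt_card))
  have hroots := FiniteField.roots_X_pow_card_sub_X F
  have h := prod_multiset_X_sub_C_of_monic_of_roots_card_eq hmonic (by
    rw [hroots, FiniteField.X_pow_card_sub_X_natDegree_eq F Fintype.one_lt_card]; rfl)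
  rw [hroots] at h
  exact h

end powHom

variable {F k : Type*} [Field F] [Finite F] [Field k] [IsAlgClosed k] [Algebra F k]
  (W₀ : WeierstrassCurve F) [W₀.IsElliptic]

/-- The curve over the algebraically closed field. -/
abbrev Wbar (k : Type*) [Field k] [Algebra F k] : WeierstrassCurve.Affine k := W₀.baseChange k

local notation "W" => Wbar W₀ k

instance instIsEllipticWbar : WeierstrassCurve.IsElliptic (Wbar W₀ k) :=
  inferInstanceAs (W₀.map (algebraMap F k)).IsElliptic

omit [IsAlgClosed k] [W₀.IsElliptic] in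
lemma map_powHom_fix {L : Type*} [Field L] [Algebra k L] :
    ((W).map (algebraMap k L)).map (powHom F ((algebraMap k L).comp (algebraMap F k))) =
      (W).map (algebraMap k L) := by
  ext <;> exact powHom_fix F ((algebraMap k L).comp (algebraMap F k)) _

/-- The Frobenius on the function field. -/
def frFF : FF W →+* FF W := powHom F ((algebraMap k (FF W)).comp (algebraMap F k))

omit [IsAlgClosed k] [W₀.IsElliptic] in
@[simp] lemma frFF_apply (z : FF W) : frFF (k := k) W₀ z = z ^ Nat.card F := rfl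

/-- The Frobenius on points of the generic curve. -/
def Frob : (WK W).Point →+ (WK W).Point := pointHom (frFF (k := k) W₀) (map_powHom_fix W₀)

omit [IsAlgClosed k] [W₀.IsElliptic] in
/-- Frobenius commutes with endomorphisms of the function field. -/
lemma Frob_mapPt (f : FF W →ₐ[k] FF W) (P : (WK W).Point) :
    Frob W₀ (mapPt W f P) = mapPt W f (Frob W₀ P) :=
  pointHom_comm (f : FF W →+* FF W) (map_algHom W f) (frFF W₀) (map_powHom_fix W₀)
    (frFF W₀) (map_powHom_fix W₀) (f : FF W →+* FF W) (map_algHom W f)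
    (fun z ↦ by simp) P

omit [IsAlgClosed k] [W₀.IsElliptic] in
/-- Frobenius preserves even points. -/
lemma Frob_mem_evenPts {P : (WK W).Point} (hP : P ∈ evenPts W) : Frob W₀ P ∈ evenPts W := by
  rw [mem_evenPts, ← Frob_mapPt, (mem_evenPts W).mp hP, map_neg]

/-- Frobenius multiplies degrees by `#F`. -/
lemma degPt_Frob {P : (WK W).Point} (hP : P ∈ evenPts W) :
    degPt W (Frob W₀ P) = Nat.card F * degPt W P := by
  obtain ⟨v, ⟨hv, c, hc, hcv⟩, hdeg⟩ := exists_hasRep W hP
  have hrep : HasRep W (Frob W₀ P) (fun i ↦ v i ^ Nat.card F) := by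
    refine ⟨fun a ha ↦ hv a ?_, c ^ Nat.card F, pow_ne_zero _ hc, ?_⟩
    · funext i
      have := congr_fun ha i
      simp only [eval_pow, Pi.zero_apply] at this
      exact (pow_eq_zero_iff Nat.card_pos.ne').mp this
    · rw [Frob, xRep_pointHom]
      funext i
      simp [congr_fun hcv i, mul_pow]
  rw [← HasRep.maxDeg_eq W (Frob_mem_evenPts W₀ hP) hrep, ← hdeg, maxDeg, maxDeg]
  simp [Finset.univ_fin2, natDegree_pow, Nat.mul_max_mul_left]

/-- The polynomial `(y - y'')² + a₁ (y - y'') d - (a₂ + x + x^q) d²`. -/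
def maninForm {R : Type*} [CommRing R] (c : WeierstrassCurve R) (q : ℕ) (x y : R) : R :=
  (y + y ^ q + c.a₁ * x ^ q + c.a₃) ^ 2 +
    c.a₁ * (y + y ^ q + c.a₁ * x ^ q + c.a₃) * (x - x ^ q) -
    (c.a₂ + x + x ^ q) * (x - x ^ q) ^ 2

lemma map_maninForm {R S : Type*} [CommRing R] [CommRing S] (f : R →+* S)
    (c : WeierstrassCurve R) (q : ℕ) (x y : R) :
    f (maninForm c q x y) = maninForm (c.map f) q (f x) (f y) := by
  simp [maninForm]

omit [Finite F] [IsAlgClosed k] in
lemma gen_eq : gen W = .some (xg W) (yg W) (nonsingular_generic W) := rfl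

omit [IsAlgClosed k] [W₀.IsElliptic] in
lemma X_ne_pow : (xg W) ≠ xg W ^ Nat.card F := by
  intro h
  have h' : xi W (X : k[X]) = xi W (X ^ Nat.card F) := by simpa [xi] using h
  have := congr_arg natDegree (xi_injective W h')
  rw [natDegree_X, natDegree_X_pow] at this
  exact (Finite.one_lt_card (α := F)).ne' this.symm

omit [IsAlgClosed k] in
lemma exists_poly_of_integral {r : RatFunc k} {S P : k[X]}
    (h : r ^ 2 - algebraMap k[X] (RatFunc k) S * r + algebraMap k[X] (RatFunc k) P = 0) :
    ∃ N : k[X], algebraMap k[X] (RatFunc k) N = r := by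
  refine IsIntegrallyClosed.algebraMap_eq_of_integral ⟨X ^ 2 - C S * X + C P, ?_, ?_⟩
  · rw [sub_add]
    exact monic_X_pow_sub (lt_of_le_of_lt (by compute_degree) (by norm_num : (1 : WithBot ℕ) < 2))
  · simpa using h

omit [IsAlgClosed k] in
/-- The numerator of `x(1 - π)`. -/
lemma exists_maninPoly :
    ∃ N : k[X],
      (WK W).addX (xg W) (xg W ^ Nat.card F)
        ((WK W).slope (xg W) (xg W ^ Nat.card F) (yg W)
          ((WK W).negY (xg W ^ Nat.card F) (yg W ^ Nat.card F))) *
        (xg W - xg W ^ Nat.card F) ^ 2 = xi W N ∧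
      xi W N = maninForm (WK W) (Nat.card F) (xg W) (yg W) ∧
      N.natDegree = 2 * Nat.card F + 1 := by
  set q := Nat.card F with hq
  have hq1 : 1 < q := Finite.one_lt_card
  set x := xg W
  set y := yg W
  have hx : x ≠ x ^ q := X_ne_pow W₀
  have he : (WK W).Equation x y := equation_generic W
  have hg : Frob W₀ (gen W) ∈ evenPts W := Frob_mem_evenPts W₀ (gen_mem_evenPts W)
  have he' : (WK W).Equation (x ^ q) (y ^ q) := by
    have h := Affine.Equation.map (frFF (k := k) W₀) he
    rwa [show (WK W).map (frFF (k := k) W₀) = WK W from map_powHom_fix W₀] at h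
  set xm := (WK W).addX x (x ^ q) ((WK W).slope x (x ^ q) y ((WK W).negY (x ^ q) (y ^ q))) with hxm
  set xp := (WK W).addX x (x ^ q) ((WK W).slope x (x ^ q) y (y ^ q)) with hxp
  have hm : ∃ r, iota W r = xm := by
    have hmem := sub_mem (gen_mem_evenPts W) hg
    rw [gen_eq, sub_eq_add_neg, Frob, pointHom_some, Point.neg_some] at hmem
    simp only [frFF_apply] at hmem
    rw [Point.add_of_X_ne hx] at hmem
    exact ⟨_, iota_xRat W hmem rfl⟩
  have hp : ∃ r, iota W r = xp := by
    have hmem := add_mem (gen_mem_evenPts W) hg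
    rw [gen_eq, Frob, pointHom_some] at hmem
    simp only [frFF_apply] at hmem
    rw [Point.add_of_X_ne hx] at hmem
    exact ⟨_, iota_xRat W hmem rfl⟩
  obtain ⟨rm, hrm⟩ := hm
  obtain ⟨rp, hrp⟩ := hp
  let S : k[X] := C 2 * (X + X ^ q) * (X * X ^ q) + C (W).b₂ * (X * X ^ q) +
    C (W).b₄ * (X + X ^ q) + C (W).b₆
  let B : k[X] := (X * X ^ q) ^ 2 - C (W).b₄ * (X * X ^ q) - C (W).b₆ * (X + X ^ q) - C (W).b₈
  let d : k[X] := X - X ^ q
  have hS : (xp + xm) * (x - x ^ q) ^ 2 = xi W S := by
    rw [hxp, hxm, addX_add_addX_negY he he' hx]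
    simp [S, xi, x, map_ofNat]
  have hB : (xp * xm) * (x - x ^ q) ^ 2 = xi W B := by
    rw [hxp, hxm, addX_mul_addX_negY he he' hx]
    simp [B, xi, x]
  have hd : iota W (algebraMap _ _ (d ^ 2)) = (x - x ^ q) ^ 2 := by
    rw [iota_algebraMap]; simp [d, xi, x]
  have hint : ∀ r z : RatFunc k, iota W (r + z) * (x - x ^ q) ^ 2 = xi W S →
      iota W (r * z) * (x - x ^ q) ^ 2 = xi W B →
      ∃ N : k[X], algebraMap k[X] (RatFunc k) N = r * algebraMap _ _ (d ^ 2) := by
    intro r z h1 h2
    rw [← hd, ← iota_algebraMap, ← map_mul] at h1 h2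
    have h1' := (iota W).toRingHom.injective h1
    have h2' := (iota W).toRingHom.injective h2
    apply exists_poly_of_integral (S := S) (P := B * d ^ 2)
    rw [map_mul, ← h1', ← h2']
    ring
  obtain ⟨N, hN⟩ := hint rm rp (by rw [map_add, hrm, hrp, add_comm, hS])
    (by rw [map_mul, hrm, hrp, mul_comm xm, hB])
  obtain ⟨N', hN'⟩ := hint rp rm (by rw [map_add, hrm, hrp, hS])
    (by rw [map_mul, hrm, hrp, hB])
  have hNx : xm * (x - x ^ q) ^ 2 = xi W N := by
    rw [← iota_algebraMap, hN, map_mul, hrm, hd]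
  have hN'x : xp * (x - x ^ q) ^ 2 = xi W N' := by
    rw [← iota_algebraMap, hN', map_mul, hrp, hd]
  refine ⟨N, hNx, ?_, ?_⟩
  · rw [← hNx, hxm, slope_of_X_ne hx]
    have hdx : x - x ^ q ≠ 0 := sub_ne_zero.mpr hx
    simp only [addX, negY, maninForm]
    field_simp
    ring
  · have hsum : N + N' = S := xi_injective W (by rw [map_add, ← hNx, ← hN'x, ← hS]; ring)
    have hprod : N * N' = B * d ^ 2 := xi_injective W (by
      rw [map_mul, map_mul, ← hNx, ← hN'x, ← hB, map_pow]
      simp only [d, map_sub, map_pow, xi, aeval_X, x]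
      ring)
    have hSdeg : S.natDegree ≤ 2 * q + 1 := by
      simp only [S]
      compute_degree
      all_goals lia
    have hBdeg : B.natDegree = 2 * q + 2 := by
      have h1 : ((X : k[X]) * X ^ q) ^ 2 = X ^ (2 * q + 2) := by ring
      simp only [B, h1, sub_sub]
      rw [natDegree_sub_eq_left_of_natDegree_lt, natDegree_X_pow]
      rw [natDegree_X_pow]
      refine lt_of_le_of_lt (b := q + 1) ?_ (by lia)
      compute_degree
      all_goals lia
    have hddeg : (d ^ 2).natDegree = 2 * q := by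
      rw [natDegree_pow, show d = -(X ^ q - X) by simp [d], natDegree_neg,
        FiniteField.X_pow_card_sub_X_natDegree_eq k hq1]
    have hB0 : B ≠ 0 := fun h ↦ by rw [h, natDegree_zero] at hBdeg; lia
    have hd0 : d ^ 2 ≠ 0 := fun h ↦ by rw [h, natDegree_zero] at hddeg; lia
    have hN0 : N ≠ 0 ∧ N' ≠ 0 := mul_ne_zero_iff.mp (hprod ▸ mul_ne_zero hB0 hd0)
    have htot : N.natDegree + N'.natDegree = 4 * q + 2 := by
      rw [← natDegree_mul hN0.1 hN0.2, hprod, natDegree_mul hB0 hd0, hBdeg, hddeg]; lia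
    rw [← hsum] at hSdeg
    rcases lt_trichotomy N.natDegree N'.natDegree with h | h | h
    · rw [natDegree_add_eq_right_of_natDegree_lt h] at hSdeg; lia
    · lia
    · rw [natDegree_add_eq_left_of_natDegree_lt h] at hSdeg; lia

variable {W₀}

omit [Finite F] [IsAlgClosed k] [W₀.IsElliptic] in
/-- Substitution into the defining identity of the Manin polynomial. -/
lemma equation_dvd_sub {N : k[X]}
    (hN : xi W N = maninForm (WK W) (Nat.card F) (xg W) (yg W)) (xT yT : k[X]) :
    yT ^ 2 + C (W).a₁ * xT * yT + C (W).a₃ * yT -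
        (xT ^ 3 + C (W).a₂ * xT ^ 2 + C (W).a₄ * xT + C (W).a₆) ∣
      N.comp xT - maninForm ((W).map (C : k →+* k[X])) (Nat.card F) xT yT := by
  let c : k →+* k[X][X] := (C : k[X] →+* k[X][X]).comp C
  let T : k[X][X] := C N - maninForm ((W).map c) (Nat.card F) (C X) X
  have hT : CoordinateRing.mk W T = 0 := by
    apply IsFractionRing.injective (W).CoordinateRing (FF W)
    have hc : ((algebraMap (W).CoordinateRing (FF W)).comp (CoordinateRing.mk W)).comp c =
        algebraMap k (FF W) := RingHom.ext fun a ↦ by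
      simp only [c, RingHom.comp_apply]
      rw [← xi_apply]
      simp [xi]
    simp only [T, map_sub, map_zero]
    rw [← xi_apply, hN, ← RingHom.comp_apply (algebraMap (W).CoordinateRing (FF W))
      (CoordinateRing.mk W) (maninForm _ _ _ _), map_maninForm, WeierstrassCurve.map_map, hc]
    simp [xg, yg]
  obtain ⟨Q, hQ⟩ := AdjoinRoot.mk_eq_zero.mp hT
  let ev : k[X][X] →+* k[X] := eval₂RingHom (compRingHom xT) yT
  refine ⟨ev Q, ?_⟩
  have h := congr_arg ev hQ
  rw [map_mul] at h
  have hc : ev.comp c = (C : k →+* k[X]) := RingHom.ext fun a ↦ by simp [ev, c]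
  convert! h using 1
  · simp only [T, map_sub, map_maninForm, WeierstrassCurve.map_map, hc]
    simp [ev]
  · congr 1
    simp [ev, Affine.polynomial, eval₂_pow]
    ring

omit [IsAlgClosed k] [W₀.IsElliptic] in
lemma eval_eq_sq {N : k[X]} (hN : xi W N = maninForm (WK W) (Nat.card F) (xg W) (yg W))
    {a : F} {β : k} (hβ : (W).Equation (algebraMap F k a) β) :
    N.eval (algebraMap F k a) =
      (β + β ^ Nat.card F + (W).a₁ * algebraMap F k a + (W).a₃) ^ 2 := by
  have h := equation_dvd_sub hN (C (algebraMap F k a)) (C β)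
  have h0 := (equation_iff' ..).mp hβ
  rw [show C β ^ 2 + C (W).a₁ * C (algebraMap F k a) * C β + C (W).a₃ * C β -
        (C (algebraMap F k a) ^ 3 + C (W).a₂ * C (algebraMap F k a) ^ 2 +
          C (W).a₄ * C (algebraMap F k a) + C (W).a₆) = 0 by
    rw [← map_zero (C : k →+* k[X]), ← h0]; simp, zero_dvd_iff,
    sub_eq_zero, comp_C, ← map_maninForm] at h
  rw [C_injective h, maninForm, powHom_fix]
  ring

omit [IsAlgClosed k] [W₀.IsElliptic] in
lemma sq_dvd_of_no_root {N : k[X]}
    (hN : xi W N = maninForm (WK W) (Nat.card F) (xg W) (yg W)) {a : F} {β : k}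
    (hβ : (W).Equation (algebraMap F k a) β)
    (hu : β + β ^ Nat.card F + (W).a₁ * algebraMap F k a + (W).a₃ = 0)
    (hd : 2 * β + (W).a₁ * algebraMap F k a + (W).a₃ ≠ 0) :
    (X - C (algebraMap F k a)) ^ 2 ∣ N := by
  set α := algebraMap F k a with hα
  set q := Nat.card F with hq
  have ha : α ^ q = α := powHom_fix F (algebraMap F k) a
  obtain ⟨q', hq'⟩ : ∃ q', q = q' + 2 := ⟨q - 2, by have := Finite.one_lt_card (α := F); lia⟩
  set γ := (3 * α ^ 2 + 2 * (W).a₂ * α + (W).a₄ - (W).a₁ * β) / (2 * β + (W).a₁ * α + (W).a₃)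
    with hγ
  have hγ' : γ * (2 * β + (W).a₁ * α + (W).a₃) =
      3 * α ^ 2 + 2 * (W).a₂ * α + (W).a₄ - (W).a₁ * β := div_mul_cancel₀ _ hd
  have h := equation_dvd_sub hN (C α + X) (C β + C γ * X)
  have h0 := (equation_iff' ..).mp hβ
  have hfac : (X : k[X]) ^ 2 ∣ (C β + C γ * X) ^ 2 + C (W).a₁ * (C α + X) * (C β + C γ * X) +
      C (W).a₃ * (C β + C γ * X) -
      ((C α + X) ^ 3 + C (W).a₂ * (C α + X) ^ 2 + C (W).a₄ * (C α + X) + C (W).a₆) := by
    refine ⟨C (γ ^ 2 + (W).a₁ * γ - 3 * α - (W).a₂) - X, ?_⟩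
    have h0' := congr_arg (C : k → k[X]) h0
    have h1' := congr_arg (C : k → k[X]) hγ'
    simp only [map_add, map_sub, map_mul, map_pow, map_ofNat, map_zero] at h0' h1' ⊢
    linear_combination h0' + X * h1'
  have hN' := hfac.trans h
  have hpx : ((C α + X) ^ q : k[X]) = C α + X ^ q := by
    rw [show (C α + X) ^ q = powHom F ((C : k →+* k[X]).comp (algebraMap F k)) (C α + X) from rfl,
      map_add]
    simp only [powHom_apply, ← hq, ← C_pow, ha]
  have hpy : ((C β + C γ * X) ^ q : k[X]) = C (β ^ q) + C (γ ^ q) * X ^ q := by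
    rw [show (C β + C γ * X) ^ q =
      powHom F ((C : k →+* k[X]).comp (algebraMap F k)) (C β + C γ * X) from rfl, map_add]
    simp [hq, mul_pow]
  have hform : (X : k[X]) ^ 2 ∣
      maninForm ((W).map (C : k →+* k[X])) q (C α + X) (C β + C γ * X) := by
    rw [maninForm, hpx, hpy]
    have hu' := congr_arg (C : k → k[X]) hu
    simp only [map_add, map_mul, map_pow, map_zero] at hu'
    rw [map_a₁, map_a₂, map_a₃]
    refine ⟨(C γ + C (γ ^ q) * X ^ (q' + 1) + C (W).a₁ * X ^ (q' + 1)) ^ 2 +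
      C (W).a₁ * (C γ + C (γ ^ q) * X ^ (q' + 1) + C (W).a₁ * X ^ (q' + 1)) * (1 - X ^ (q' + 1)) -
      (C (W).a₂ + (C α + X) + (C α + X ^ q)) * (1 - X ^ (q' + 1)) ^ 2, ?_⟩
    simp only [map_pow] at *
    have hU : (C β + C γ * X + (C β ^ q + C γ ^ q * X ^ q) + C (W).a₁ * (C α + X ^ q) + C (W).a₃) =
        X * (C γ + C γ ^ q * X ^ (q' + 1) + C (W).a₁ * X ^ (q' + 1)) := by
      rw [hq'] at hu' ⊢
      linear_combination hu'
    rw [hU, hq']
    ring
  have hfin : (X : k[X]) ^ 2 ∣ N.comp (C α + X) := by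
    have h2 := dvd_add hN' hform
    rw [← hq, sub_add_cancel] at h2
    exact h2
  have := map_dvd (compRingHom (X - C α)) hfin
  simpa [comp_assoc] using this

omit [IsAlgClosed k] in
lemma not_sq_dvd_of_double_root {N : k[X]}
    (hN : xi W N = maninForm (WK W) (Nat.card F) (xg W) (yg W)) {a : F} {β : k}
    (hβ : (W).Equation (algebraMap F k a) β)
    (hβq : β ^ Nat.card F = β)
    (hd : 2 * β + (W).a₁ * algebraMap F k a + (W).a₃ = 0) :
    ¬ (X - C (algebraMap F k a)) ^ 2 ∣ N := by
  intro hdvd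
  set α := algebraMap F k a with hα
  set q := Nat.card F with hq
  have ha : α ^ q = α := powHom_fix F (algebraMap F k) a
  obtain ⟨q', hq'⟩ : ∃ q', q = q' + 2 := ⟨q - 2, by have := Finite.one_lt_card (α := F); lia⟩
  set e := (W).a₁ * β - (3 * α ^ 2 + 2 * (W).a₂ * α + (W).a₄) with he
  have hne : e ≠ 0 := by
    rcases ((nonsingular_iff' ..).mp (equation_iff_nonsingular.mp hβ)).2 with h | h
    · exact h
    · exact absurd hd h
  set γ := -e⁻¹ with hγ
  have hγ' : γ * e = -1 := by rw [hγ, neg_mul, inv_mul_cancel₀ hne]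
  have h := equation_dvd_sub hN (C α + C γ * X ^ 2) (C β + X)
  have h0 := (equation_iff' ..).mp hβ
  have hfac : (X : k[X]) ^ 3 ∣ (C β + X) ^ 2 + C (W).a₁ * (C α + C γ * X ^ 2) * (C β + X) +
      C (W).a₃ * (C β + X) - ((C α + C γ * X ^ 2) ^ 3 + C (W).a₂ * (C α + C γ * X ^ 2) ^ 2 +
        C (W).a₄ * (C α + C γ * X ^ 2) + C (W).a₆) := by
    refine ⟨C ((W).a₁ * γ) - C ((3 * α + (W).a₂) * γ ^ 2) * X - C (γ ^ 3) * X ^ 3, ?_⟩
    have h0' := congr_arg (C : k → k[X]) h0
    have h1' := congr_arg (C : k → k[X]) hγ'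
    have h2' := congr_arg (C : k → k[X]) hd
    simp only [he, map_add, map_sub, map_mul, map_pow, map_ofNat, map_zero, map_neg, map_one]
      at h0' h1' h2' ⊢
    linear_combination h0' + X * h2' + X ^ 2 * h1'
  have hN' := hfac.trans h
  have hpx : ((C α + C γ * X ^ 2) ^ q : k[X]) = C α + C γ ^ q * (X ^ 2) ^ q := by
    rw [show (C α + C γ * X ^ 2) ^ q =
      powHom F ((C : k →+* k[X]).comp (algebraMap F k)) (C α + C γ * X ^ 2) from rfl, map_add]
    simp only [powHom_apply, ← hq, mul_pow, ← C_pow, ha]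
  have hpy : ((C β + X) ^ q : k[X]) = C β + X ^ q := by
    rw [show (C β + X) ^ q = powHom F ((C : k →+* k[X]).comp (algebraMap F k)) (C β + X) from rfl,
      map_add]
    simp only [powHom_apply, ← hq, ← C_pow, hβq]
  have hd' := congr_arg (C : k → k[X]) hd
  simp only [map_add, map_mul, map_ofNat, map_zero] at hd'
  have hform : (X : k[X]) ^ 3 ∣
      maninForm ((W).map (C : k →+* k[X])) q (C α + C γ * X ^ 2) (C β + X) - X ^ 2 := by
    rw [maninForm, hpx, hpy, map_a₁, map_a₂, map_a₃]
    refine ⟨X ^ q' * (2 + X ^ (q' + 1)) +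
      C (W).a₁ * C γ ^ q * (X ^ (2 * q' + 2) * (2 + 2 * X ^ (q' + 1)) +
        C (W).a₁ * C γ ^ q * X ^ (4 * q' + 5)) +
      C (W).a₁ * (1 + X ^ (q' + 1) + C (W).a₁ * C γ ^ q * X ^ (2 * q' + 3)) *
        (C γ - C γ ^ q * X ^ (2 * q' + 2)) -
      (C (W).a₂ + (C α + C γ * X ^ 2) + (C α + C γ ^ q * (X ^ 2) ^ q)) *
        X * (C γ - C γ ^ q * X ^ (2 * q' + 2)) ^ 2, ?_⟩
    have hU : (C β + X + (C β + X ^ q) + C (W).a₁ * (C α + C γ ^ q * (X ^ 2) ^ q) + C (W).a₃) =
        X * (1 + X ^ (q' + 1) + C (W).a₁ * C γ ^ q * X ^ (2 * q' + 3)) := by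
      rw [← pow_mul, hq']
      linear_combination hd'
    rw [hU, ← pow_mul, hq']
    ring
  have h4 : ((X : k[X]) ^ 2) ^ 2 ∣ N.comp (C α + C γ * X ^ 2) := by
    refine (pow_dvd_pow_of_dvd (dvd_mul_left (X ^ 2) (C γ)) 2).trans ?_
    have := map_dvd (compRingHom (C α + C γ * X ^ 2)) hdvd
    simpa using this
  have h3 : (X : k[X]) ^ 3 ∣ X ^ 2 := by
    have h3' : (X : k[X]) ^ 3 ∣ N.comp (C α + C γ * X ^ 2) :=
      Dvd.dvd.trans ⟨X, by ring⟩ h4
    have := dvd_sub (dvd_sub h3' hN') hform
    rw [← hq, sub_sub_self, sub_sub_self] at this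
    exact this
  have := natDegree_le_of_dvd h3 (pow_ne_zero _ X_ne_zero)
  simp at this

omit [W₀.IsElliptic] in
/-- Over `a ∈ F` with no rational point, the Manin polynomial has a double root. -/
lemma two_le_rootMultiplicity_of_no_point {N : k[X]} (hN0 : N ≠ 0)
    (hNf : xi W N = maninForm (WK W) (Nat.card F) (xg W) (yg W)) {a : F}
    (hex : ∀ b, ¬ W₀.toAffine.Equation a b) :
    2 ≤ N.rootMultiplicity (algebraMap F k a) := by
  have := Fintype.ofFinite F
  set q := Nat.card F with hq
  set α : F → k := fun a ↦ algebraMap F k a with hα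
  have hE : ∀ b : F, W₀.toAffine.Equation a b ↔ (W).Equation (α a) (algebraMap F k b) :=
    fun b ↦ (map_equation W₀.toAffine (algebraMap F k).injective a b).symm
  obtain ⟨β, hβ⟩ : ∃ β, (W).Equation (α a) β := by
    obtain ⟨β, hβ⟩ := IsAlgClosed.exists_root ((W).polynomial.map (evalRingHom (α a)))
      (by rw [Affine.monic_polynomial.degree_map, Affine.degree_polynomial]; decide)
    exact ⟨β, by rw [Affine.Equation, ← map_evalRingHom_eval]; exact hβ⟩
  have hne : ∀ b : F, algebraMap F k b ≠ β := fun b hb ↦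
    hex b ((hE b).mpr (hb ▸ hβ))
  have hβq : β ^ q ≠ β := fun h ↦ by
    have hroot : (X ^ Fintype.card F - X : F[X]).aeval β = 0 := by
      simp [← Nat.card_eq_fintype_card, ← hq, h]
    rw [← prod_X_sub_C_eq, map_prod, Finset.prod_eq_zero_iff] at hroot
    obtain ⟨b, -, hb⟩ := hroot
    simp [sub_eq_zero] at hb
    exact hne b hb.symm
  have hβ' : (W).Equation (α a) (β ^ q) := by
    have h := Affine.Equation.map (powHom F (algebraMap F k)) hβ
    rw [show (W).map (powHom F (algebraMap F k)) = W by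
      ext <;> exact powHom_fix F (algebraMap F k) _] at h
    rw [powHom_apply, powHom_apply, show α a ^ Nat.card F = α a from
      powHom_fix F (algebraMap F k) a] at h
    exact h
  have hu : β + β ^ q + (W).a₁ * α a + (W).a₃ = 0 := by
    have := (Affine.Y_eq_of_X_eq hβ' hβ rfl).resolve_left hβq
    simp only [negY] at this
    linear_combination this
  have hd : 2 * β + (W).a₁ * α a + (W).a₃ ≠ 0 := fun h ↦ hβq (by linear_combination hu - h)
  exact (le_rootMultiplicity_iff hN0).mpr (sq_dvd_of_no_root hNf hβ hu hd)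

/-- Over each `a ∈ F`, rational points and roots of the Manin polynomial, the latter counted up to
multiplicity two, add up to two. -/
lemma min_rootMultiplicity_add_card [Fintype F] {N : k[X]} (hN0 : N ≠ 0)
    (hNf : xi W N = maninForm (WK W) (Nat.card F) (xg W) (yg W)) (a : F) :
    min (N.rootMultiplicity (algebraMap F k a)) 2 +
      (Finset.univ.filter fun b ↦ W₀.toAffine.Equation a b).card = 2 := by
  set α : F → k := fun a ↦ algebraMap F k a with hα
  set fib : F → Finset F := fun a ↦ Finset.univ.filter fun b ↦ W₀.toAffine.Equation a b with hfib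
  set m : F → ℕ := fun a ↦ min (N.rootMultiplicity (α a)) 2 with hm
  show m a + (fib a).card = 2
  have hE : ∀ b : F, W₀.toAffine.Equation a b ↔ (W).Equation (α a) (algebraMap F k b) :=
    fun b ↦ (map_equation W₀.toAffine (algebraMap F k).injective a b).symm
  by_cases hex : ∃ b, W₀.toAffine.Equation a b
  · obtain ⟨b, hb⟩ := hex
    have hfibEq : fib a = {b, -b - W₀.a₁ * a - W₀.a₃} := by
      ext c
      simp only [hfib, Finset.mem_filter, Finset.mem_univ, true_and, Finset.mem_insert,
        Finset.mem_singleton]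
      constructor
      · intro hc
        exact Affine.Y_eq_of_X_eq hc hb rfl
      · rintro (rfl | rfl)
        · exact hb
        · exact (equation_neg a b).mpr hb
    have hval := eval_eq_sq hNf ((hE b).mp hb)
    rw [powHom_fix F (algebraMap F k) b] at hval
    by_cases h2 : 2 * b + W₀.a₁ * a + W₀.a₃ = 0
    · have hcard : (fib a).card = 1 := by
        rw [hfibEq, show -b - W₀.a₁ * a - W₀.a₃ = b by linear_combination -h2]
        simp
      have hd : 2 * algebraMap F k b + (W).a₁ * α a + (W).a₃ = 0 := by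
        have := congr_arg (algebraMap F k) h2
        simpa [hα, Wbar, WeierstrassCurve.baseChange, map_ofNat] using this
      have h1 : 1 ≤ N.rootMultiplicity (α a) := (le_rootMultiplicity_iff hN0).mpr <| by
        rw [pow_one, dvd_iff_isRoot, IsRoot, hval]
        linear_combination (2 * algebraMap F k b + (W).a₁ * α a + (W).a₃) * hd
      have h2' : ¬ 2 ≤ N.rootMultiplicity (α a) := fun h ↦
        not_sq_dvd_of_double_root hNf ((hE b).mp hb) (powHom_fix F (algebraMap F k) b) hd
          ((le_rootMultiplicity_iff hN0).mp h)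
      simp only [hm, hcard]; lia
    · have hcard : (fib a).card = 2 := by
        rw [hfibEq, Finset.card_pair]
        intro h; apply h2; linear_combination h
      have h0 : N.rootMultiplicity (α a) = 0 := rootMultiplicity_eq_zero <| by
        rw [IsRoot, hval, pow_eq_zero_iff two_ne_zero]
        intro h
        apply h2
        apply (algebraMap F k).injective
        simp only [map_add, map_mul, map_zero, map_ofNat]
        simp only [Wbar, WeierstrassCurve.baseChange, map_a₁, map_a₃] at h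
        linear_combination h
      simp only [hm, h0, hcard]; rfl
  · have hcard : (fib a).card = 0 := by
      simp only [hfib, Finset.card_eq_zero, Finset.filter_eq_empty_iff]
      exact fun b _ hb ↦ hex ⟨b, hb⟩
    have h2 := two_le_rootMultiplicity_of_no_point hN0 hNf (not_exists.mp hex)
    simp only [hm, hα, hcard]; lia

omit [Finite F] [IsAlgClosed k] in
/-- Cancelling the common roots in `N / (X - X^#F)²`. -/
lemma exists_coprime_split [Fintype F] {N : k[X]} (hN0 : N ≠ 0) :
    ∃ G N' D' : k[X], N = G * N' ∧ (X - X ^ Nat.card F : k[X]) ^ 2 = G * D' ∧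
      G ≠ 0 ∧ N' ≠ 0 ∧ D' ≠ 0 ∧ NoCommonRoot ![N', D'] ∧
      G.natDegree = ∑ a : F, min (N.rootMultiplicity (algebraMap F k a)) 2 ∧
      D'.natDegree = ∑ a : F, (2 - min (N.rootMultiplicity (algebraMap F k a)) 2) := by
  set q := Nat.card F with hq
  set α : F → k := fun a ↦ algebraMap F k a with hα
  set m : F → ℕ := fun a ↦ min (N.rootMultiplicity (α a)) 2 with hm
  set G : k[X] := ∏ a : F, (X - C (α a)) ^ m a with hG
  set D' : k[X] := ∏ a : F, (X - C (α a)) ^ (2 - m a) with hD'
  have hsplit : (X - X ^ q : k[X]) ^ 2 = G * D' := by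
    have h1 : (X ^ q - X : k[X]) = ∏ a : F, (X - C (α a)) := by
      have := congr_arg (Polynomial.map (algebraMap F k)) (prod_X_sub_C_eq F)
      rw [Polynomial.map_prod, Polynomial.map_sub, Polynomial.map_pow, map_X,
        ← Nat.card_eq_fintype_card, ← hq] at this
      rw [← this]
      simp [hα]
    rw [show (X - X ^ q : k[X]) ^ 2 = (X ^ q - X) ^ 2 by ring, h1, hG, hD',
      ← Finset.prod_mul_distrib, ← Finset.prod_pow]
    refine Finset.prod_congr rfl fun a _ ↦ ?_
    rw [← pow_add, Nat.add_sub_cancel' (min_le_right _ _)]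
  have hGN : G ∣ N := by
    refine Finset.prod_dvd_of_coprime (fun a _ b _ hab ↦ IsCoprime.pow ?_) fun a _ ↦ ?_
    · exact pairwise_coprime_X_sub_C (fun x y h ↦ (algebraMap F k).injective h) hab
    · exact (pow_dvd_pow _ (min_le_left _ _)).trans (pow_rootMultiplicity_dvd N _)
  obtain ⟨N', hN'⟩ := hGN
  have hG0 : G ≠ 0 := Finset.prod_ne_zero_iff.mpr fun a _ ↦ pow_ne_zero _ (X_sub_C_ne_zero _)
  have hD0 : D' ≠ 0 := Finset.prod_ne_zero_iff.mpr fun a _ ↦ pow_ne_zero _ (X_sub_C_ne_zero _)
  have hN'0 : N' ≠ 0 := fun h ↦ hN0 (by rw [hN', h, mul_zero])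
  have hcop : NoCommonRoot ![N', D'] := by
    intro r hr
    have hN'r : N'.eval r = 0 := congr_fun hr 0
    have hD'r : D'.eval r = 0 := congr_fun hr 1
    rw [hD', eval_prod, Finset.prod_eq_zero_iff] at hD'r
    obtain ⟨a, -, ha⟩ := hD'r
    simp only [eval_pow, eval_sub, eval_X, eval_C, pow_eq_zero_iff'] at ha
    obtain ⟨hra, hm2⟩ := ha
    rw [sub_eq_zero] at hra
    subst hra
    have h1 : (X - C (α a)) ^ (m a + 1) ∣ N := by
      rw [hN', pow_succ]
      exact mul_dvd_mul (Finset.dvd_prod_of_mem _ (Finset.mem_univ a))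
        (dvd_iff_isRoot.mpr hN'r)
    have := (le_rootMultiplicity_iff hN0).mpr h1
    simp only [hm] at this hm2
    lia
  refine ⟨G, N', D', hN', hsplit, hG0, hN'0, hD0, hcop, ?_, ?_⟩
  · rw [hG, natDegree_prod _ _ fun a _ ↦ pow_ne_zero _ (X_sub_C_ne_zero _)]
    simp [hm, hα]
  · rw [hD', natDegree_prod _ _ fun a _ ↦ pow_ne_zero _ (X_sub_C_ne_zero _)]
    simp [hm, hα]

variable (W₀)

/-- The degree of `1 - π` read off from a reduced form of its abscissa. -/
lemma degPt_gen_sub_Frob_eq_max {N G N' D' : k[X]}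
    (hNx : (WK W).addX (xg W) (xg W ^ Nat.card F)
        ((WK W).slope (xg W) (xg W ^ Nat.card F) (yg W)
          ((WK W).negY (xg W ^ Nat.card F) (yg W ^ Nat.card F))) *
        (xg W - xg W ^ Nat.card F) ^ 2 = xi W N)
    (hN' : N = G * N') (hsplit : (X - X ^ Nat.card F : k[X]) ^ 2 = G * D') (hG0 : G ≠ 0)
    (hD0 : D' ≠ 0) (hcop : NoCommonRoot ![N', D']) :
    degPt W (gen W - Frob W₀ (gen W)) = max N'.natDegree D'.natDegree := by
  have hmem := sub_mem (gen_mem_evenPts W) (Frob_mem_evenPts W₀ (gen_mem_evenPts W))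
  obtain ⟨y', h', hgen⟩ : ∃ y' h', gen W - Frob W₀ (gen W) = Point.some
      ((WK W).addX (xg W) (xg W ^ Nat.card F)
        ((WK W).slope (xg W) (xg W ^ Nat.card F) (yg W)
          ((WK W).negY (xg W ^ Nat.card F) (yg W ^ Nat.card F)))) y' h' := by
    obtain ⟨P, hP⟩ : ∃ P, gen W - Frob W₀ (gen W) = P := ⟨_, rfl⟩
    have hP' := hP
    rw [gen_eq, sub_eq_add_neg, Frob, pointHom_some, Point.neg_some] at hP'
    simp only [frFF_apply] at hP'
    rw [Point.add_of_X_ne (X_ne_pow W₀)] at hP'
    exact ⟨_, _, hP.trans hP'.symm⟩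
  refine exists_rep_of_ratio W hmem hgen hcop hD0 ?_
  have hG0' : xi W G ≠ 0 := (map_ne_zero_iff _ (xi_injective W)).mpr hG0
  apply mul_left_cancel₀ hG0'
  rw [← map_mul, ← hN', ← hNx, mul_left_comm, ← map_mul, ← hsplit]
  simp only [map_pow, map_sub, xi, aeval_X]

/-- The rational points are `∞` and the fibres of the abscissa. -/
lemma natCard_point_eq_sum [Fintype F] : Nat.card W₀.toAffine.Point =
    1 + ∑ a : F, (Finset.univ.filter fun b ↦ W₀.toAffine.Equation a b).card := by
  rw [Nat.card_congr (Affine.pointEquiv W₀.toAffine), WithZero, Finite.card_option,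
    Nat.card_congr (Equiv.subtypeProdEquivSigmaSubtype fun a b ↦ W₀.toAffine.Equation a b),
    Nat.card_sigma]
  rw [add_comm]
  congr 1
  refine Finset.sum_congr rfl fun a _ ↦ ?_
  rw [Nat.card_eq_fintype_card, Fintype.card_subtype]

/-- Manin's theorem: `deg (1 - π) = #E(F)`. -/
theorem degPt_gen_sub_Frob :
    degPt W (gen W - Frob W₀ (gen W)) = Nat.card W₀.toAffine.Point := by
  have := Fintype.ofFinite F
  obtain ⟨N, hNx, hNf, hNdeg⟩ := exists_maninPoly (k := k) W₀
  have hN0 : N ≠ 0 := fun h ↦ by rw [h, natDegree_zero] at hNdeg; lia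
  obtain ⟨G, N', D', hN', hsplit, hG0, hN'0, hD0, hcop, hGdeg, hD'deg⟩ :=
    exists_coprime_split (F := F) hN0
  have hN'deg : G.natDegree + N'.natDegree = 2 * Nat.card F + 1 := by
    rw [← natDegree_mul hG0 hN'0, ← hN', hNdeg]
  have hsum : G.natDegree + ∑ a : F, (Finset.univ.filter fun b ↦
      W₀.toAffine.Equation a b).card = 2 * Nat.card F := by
    rw [hGdeg, ← Finset.sum_add_distrib,
      Finset.sum_congr rfl fun a _ ↦ min_rootMultiplicity_add_card hN0 hNf a]
    simp [Nat.card_eq_fintype_card, mul_comm]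
  have hsum' : G.natDegree + D'.natDegree = 2 * Nat.card F := by
    rw [hGdeg, hD'deg, ← Finset.sum_add_distrib,
      Finset.sum_congr rfl fun a _ ↦ Nat.add_sub_cancel' (min_le_right _ 2)]
    simp [Nat.card_eq_fintype_card, mul_comm]
  rw [degPt_gen_sub_Frob_eq_max W₀ hNx hN' hsplit hG0 hD0 hcop, natCard_point_eq_sum W₀]
  lia

end Fermat.Agent.ECFrobenius
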